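import Fermat.Agent.Dye.Hopf

/-!
# Arrays

An array on a set is a finite subrelation of the orbit relation together with an address, whose
classes meet every address exactly once. An array on the set of one address refines the array.
-/

set_option autoImplicit false

noncomputable section

open MeasureTheory Set
open FA.BorelCombinatorics (iter iter_zero iter_add iter_neg_iter measurable_iter)

namespace FA.Dye

variable {X : Type*} [MeasurableSpace X] {μ : Measure X} {T : X ≃ᵐ X} {A B : Set X}

theorem PIso.measure_le (h : MeasurePreserving T μ μ) (hA : MeasurableSet A)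
    (e : PIso T μ A B) : μ A ≤ μ B := by
  set E : ℤ → Set X := fun k => iter T (-k) ⁻¹' (A ∩ e.fwd ⁻¹' {k})
  have hm : ∀ k, MeasurableSet (A ∩ e.fwd ⁻¹' {k}) := fun k =>
    hA.inter (e.fwd_meas (measurableSet_singleton k))
  have hgood : ∀ᵐ y ∂μ, ∀ k, y ∈ E k → y ∈ B ∧ iter T (-k) y = mv T e.bwd y := by
    filter_upwards [ae_all_iter h e.spec] with y hy k hk
    have h0 := (hy (-k)).1 hk.1
    have hfix : mv T e.fwd (iter T (-k) y) = y := by
      rw [mv, show e.fwd (iter T (-k) y) = k from hk.2, iter_iter_neg]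
    rw [hfix] at h0
    exact ⟨h0.1, h0.2.symm⟩
  calc μ A = μ (⋃ k, A ∩ e.fwd ⁻¹' {k}) := by
        congr 1
        ext x
        simp
    _ ≤ ∑' k, μ (A ∩ e.fwd ⁻¹' {k}) := measure_iUnion_le _
    _ = ∑' k, μ (E k) := tsum_congr fun k =>
        ((mp_iter h (-k)).measure_preimage (hm k).nullMeasurableSet).symm
    _ = μ (⋃ k, E k) := by
        refine (measure_iUnion₀ (fun k l hkl => measure_eq_zero_iff_ae_notMem.2 ?_)
          fun k => (measurable_iter T (-k) (hm k)).nullMeasurableSet).symm
        filter_upwards [hgood, ae_all_iter h e.spec] with y hy hy' hkl'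
        have hk := hkl'.1
        have hl := hkl'.2
        have e1 : iter T (-k) y = iter T (-l) y := (hy k hk).2.trans (hy l hl).2.symm
        exact hkl ((show e.fwd (iter T (-k) y) = k from hk.2).symm.trans
          (e1 ▸ (show e.fwd (iter T (-l) y) = l from hl.2)))
    _ ≤ μ B := measure_mono_ae (hgood.mono fun y hy hu =>
        (hy _ (mem_iUnion.1 hu).choose_spec).1)

/-- The inverse of a piecewise translation. -/
def PIso.symm (e : PIso T μ A B) : PIso T μ B A :=
  ⟨e.bwd, e.fwd, e.bwd_meas, e.fwd_meas, e.spec.mono fun _ hx => ⟨hx.2, hx.1⟩⟩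

theorem PIso.measure_eq (h : MeasurePreserving T μ μ) (hA : MeasurableSet A)
    (hB : MeasurableSet B) (e : PIso T μ A B) : μ A = μ B :=
  le_antisymm (e.measure_le h hA) (e.symm.measure_le h hB)

/-- An array on `A`: an address in `ι` and, for every address, the exponent moving a point to the
point of its class with that address. -/
structure Arr (T : X ≃ᵐ X) (μ : Measure X) (A : Set X) (ι : Type*) where
  /-- The address. -/
  addr : X → ι
  /-- The exponents. -/
  pw : ι → X → ℤ
  addr_meas : ∀ s, MeasurableSet {x | addr x = s}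
  pw_meas : ∀ s, Measurable (pw s)
  spec : ∀ᵐ x ∂μ, x ∈ A → mv T (pw (addr x)) x = x ∧ ∀ s, mv T (pw s) x ∈ A ∧
    addr (mv T (pw s) x) = s ∧ ∀ t, mv T (pw t) (mv T (pw s) x) = mv T (pw t) x

namespace Arr

variable {ι κ : Type*}

/-- The points of a given address. -/
def fiber (L : Arr T μ univ ι) (s : ι) : Set X := {x | L.addr x = s}

/-- The array of the orbit relation of equality. -/
def trivial [Unique ι] : Arr T μ univ ι where
  addr _ := default
  pw _ _ := 0
  addr_meas _ := MeasurableSet.const _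
  pw_meas _ := measurable_const
  spec := Filter.Eventually.of_forall fun x _ => ⟨iter_zero T x, fun s =>
    ⟨mem_univ _, (Unique.eq_default s).symm, fun t => by simp [mv, iter_zero]⟩⟩

/-- Rename the addresses. -/
def relabel (L : Arr T μ A ι) (e : ι ≃ κ) : Arr T μ A κ where
  addr x := e (L.addr x)
  pw s := L.pw (e.symm s)
  addr_meas s := by simpa [← e.eq_symm_apply] using L.addr_meas (e.symm s)
  pw_meas s := L.pw_meas _
  spec := L.spec.mono fun x hx hA => ⟨by simpa using (hx hA).1, fun s =>
    ⟨((hx hA).2 _).1, by rw [((hx hA).2 _).2.1, e.apply_symm_apply], fun t => ((hx hA).2 _).2.2 _⟩⟩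

/-- Fibres are equivalent by the moves. -/
def fiberIso (L : Arr T μ univ ι) (s t : ι) : PIso T μ (L.fiber s) (L.fiber t) where
  fwd := L.pw t
  bwd := L.pw s
  fwd_meas := L.pw_meas t
  bwd_meas := L.pw_meas s
  spec := L.spec.mono fun x hx => by
    obtain ⟨hfix, hx⟩ := hx (mem_univ x)
    refine ⟨fun (hs : L.addr x = s) => ⟨(hx t).2.1, ?_⟩,
      fun (ht : L.addr x = t) => ⟨(hx s).2.1, ?_⟩⟩
    · rw [(hx t).2.2 s, ← hs, hfix]
    · rw [(hx s).2.2 t, ← ht, hfix]

/-- All addresses are equally likely. -/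
theorem measureReal_fiber [Fintype ι] [IsProbabilityMeasure μ] (h : MeasurePreserving T μ μ)
    (L : Arr T μ univ ι) (s : ι) : μ.real (L.fiber s) = 1 / Fintype.card ι := by
  have he : ∀ t, μ.real (L.fiber t) = μ.real (L.fiber s) := fun t =>
    congrArg ENNReal.toReal ((L.fiberIso t s).measure_eq h (L.addr_meas t) (L.addr_meas s))
  have hu : (⋃ t ∈ (Finset.univ : Finset ι), L.fiber t) = univ := by
    ext x
    simp [fiber]
  have hsum := measureReal_biUnion_finset (μ := μ) (s := (Finset.univ : Finset ι)) (f := L.fiber)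
    (fun t _ t' _ hne => Set.disjoint_left.2 fun x hx hx' => hne (Eq.trans (Eq.symm hx) hx'))
    fun t _ => L.addr_meas t
  rw [hu, probReal_univ] at hsum
  simp only [he, Finset.sum_const, Finset.card_univ, nsmul_eq_mul] at hsum
  have : (Fintype.card ι : ℝ) ≠ 0 := fun h0 => by simp [h0] at hsum
  field_simp
  linarith

/-- An array on the points of one address refines the whole array. -/
def refine (h : MeasurePreserving T μ μ) (L : Arr T μ univ ι) (i : ι)
    (M : Arr T μ (L.fiber i) κ) : Arr T μ univ (ι × κ) where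
  addr x := (L.addr x, M.addr (mv T (L.pw i) x))
  pw p x := L.pw i x + M.pw p.2 (mv T (L.pw i) x) +
    L.pw p.1 (mv T (M.pw p.2) (mv T (L.pw i) x))
  addr_meas p := by
    simp only [Prod.ext_iff]
    exact (L.addr_meas p.1).inter (measurable_mv (L.pw_meas i) (M.addr_meas p.2))
  pw_meas p := ((L.pw_meas i).add ((M.pw_meas _).comp (measurable_mv (L.pw_meas i)))).add
    ((L.pw_meas _).comp ((measurable_mv (M.pw_meas _)).comp (measurable_mv (L.pw_meas i))))
  spec := by
    filter_upwards [ae_all_iter h L.spec, ae_all_iter h M.spec] with x hL hM _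
    have hmv : ∀ (w : X) (p : ι × κ), mv T (fun x => L.pw i x + M.pw p.2 (mv T (L.pw i) x) +
        L.pw p.1 (mv T (M.pw p.2) (mv T (L.pw i) x))) w =
        mv T (L.pw p.1) (mv T (M.pw p.2) (mv T (L.pw i) w)) := fun w p => by
      simp only [mv, ← iter_add]
      congr 1
      ring
    have hLx := hL 0 (mem_univ _)
    rw [iter_zero] at hLx
    set y := mv T (L.pw i) x with hy_def
    have hy : y ∈ L.fiber i := (hLx.2 i).2.1
    have hMy : mv T (M.pw (M.addr y)) y = y ∧ ∀ s, mv T (M.pw s) y ∈ L.fiber i ∧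
        M.addr (mv T (M.pw s) y) = s ∧ ∀ t, mv T (M.pw t) (mv T (M.pw s) y) = mv T (M.pw t) y :=
      hM (L.pw i x) hy
    refine ⟨?_, fun p => ?_⟩
    · exact (hmv x (L.addr x, M.addr y)).trans (by rw [← hy_def, hMy.1, (hLx.2 i).2.2, hLx.1])
    set z := mv T (M.pw p.2) y with hz_def
    have hz : L.addr z = i ∧ M.addr z = p.2 ∧ ∀ t, mv T (M.pw t) z = mv T (M.pw t) y :=
      hMy.2 p.2
    have hLz : mv T (L.pw (L.addr z)) z = z ∧ ∀ s, L.addr (mv T (L.pw s) z) = s ∧
        ∀ t, mv T (L.pw t) (mv T (L.pw s) z) = mv T (L.pw t) z := by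
      have h' := hL (M.pw p.2 y + L.pw i x) (mem_univ _)
      rw [iter_add] at h'
      exact ⟨h'.1, fun s => (h'.2 s).2⟩
    have hback : mv T (L.pw i) (mv T (L.pw p.1) z) = z := by
      rw [(hLz.2 p.1).2 i]
      conv_lhs => rw [← hz.1]
      exact hLz.1
    refine ⟨mem_univ _, ?_, fun q => ?_⟩
    · rw [hmv, ← hy_def, ← hz_def, (hLz.2 p.1).1, hback, hz.2.1]
    · rw [hmv, hmv, hmv, ← hy_def, ← hz_def, hback, hz.2.2]

/-- A move of the array is a move of every refinement. -/
theorem refine_extends (h : MeasurePreserving T μ μ) (L : Arr T μ univ ι) (i : ι)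
    (M : Arr T μ (L.fiber i) κ) : ∀ᵐ x ∂μ, ∀ s,
      mv T ((L.refine h i M).pw (s, ((L.refine h i M).addr x).2)) x = mv T (L.pw s) x := by
  filter_upwards [L.spec, ae_all_iter h M.spec] with x hL hM s
  have hy : mv T (L.pw i) x ∈ L.fiber i := ((hL (mem_univ x)).2 i).2.1
  have e := (hM (L.pw i x) hy).1
  calc mv T ((L.refine h i M).pw (s, ((L.refine h i M).addr x).2)) x
      = mv T (L.pw s) (mv T (M.pw (M.addr (mv T (L.pw i) x))) (mv T (L.pw i) x)) := by
        simp only [refine, mv, ← iter_add]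
        congr 1
        ring
    _ = mv T (L.pw s) x := by
        rw [show mv T (M.pw (M.addr (mv T (L.pw i) x))) (mv T (L.pw i) x) = mv T (L.pw i) x from e,
          ((hL (mem_univ x)).2 i).2.2]

/-- An array from equivalent pieces. -/
def ofPieces [Fintype κ] (h : MeasurePreserving T μ μ) (addr : X → κ)
    (haddr : ∀ k, MeasurableSet {x | addr x = k}) (b : κ)
    (e : ∀ k, PIso T μ {x | x ∈ A ∧ addr x = b} {x | x ∈ A ∧ addr x = k}) : Arr T μ A κ where
  addr := addr
  pw k x := (e (addr x)).bwd x + (e k).fwd (mv T (e (addr x)).bwd x)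
  addr_meas := haddr
  pw_meas k := by
    refine measurable_to_countable' fun z => ?_
    rw [show (fun x => (e (addr x)).bwd x + (e k).fwd (mv T (e (addr x)).bwd x)) ⁻¹' {z} =
        ⋃ v, {x | addr x = v} ∩
          (fun x => (e v).bwd x + (e k).fwd (mv T (e v).bwd x)) ⁻¹' {z} by ext x; simp]
    exact .iUnion fun v => (haddr v).inter (((e v).bwd_meas.add
      ((e k).fwd_meas.comp (measurable_mv (e v).bwd_meas))) (measurableSet_singleton z))
  spec := by
    filter_upwards [ae_all_iter h (ae_all_iff.2 fun k => (e k).spec)] with x hx hA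
    have hmv : ∀ (w : X) (k : κ), mv T (fun x => (e (addr x)).bwd x +
        (e k).fwd (mv T (e (addr x)).bwd x)) w = mv T (e k).fwd (mv T (e (addr w)).bwd w) :=
      fun w k => by
        simp only [mv, ← iter_add]
        congr 1
        ring
    have h0 := (hx 0 (addr x)).2
    rw [iter_zero] at h0
    obtain ⟨hw, hwx⟩ := h0 ⟨hA, rfl⟩
    refine ⟨by rw [hmv]; exact hwx, fun s => ?_⟩
    obtain ⟨hz, hzw⟩ := (hx ((e (addr x)).bwd x) s).1 hw
    refine ⟨by rw [hmv]; exact hz.1, by rw [hmv]; exact hz.2, fun t => ?_⟩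
    have hz2 : addr (mv T (e s).fwd (mv T (e (addr x)).bwd x)) = s := hz.2
    rw [hmv, hmv, hz2, show mv T (e s).bwd (mv T (e s).fwd (mv T (e (addr x)).bwd x)) =
      mv T (e (addr x)).bwd x from hzw, hmv]

end Arr

end FA.Dye

end
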