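import Fermat.Agent.BorelCombinatorics.Automorphism
import Mathlib.Dynamics.Ergodic.Ergodic
import Mathlib.MeasureTheory.Constructions.Polish.EmbeddingReal
import Mathlib.MeasureTheory.Measure.Real

/-!
# Towers and Hopf's equivalence lemma

An atomless measure takes every intermediate value, an ergodic automorphism has towers of every
height filling nearly the space, and it carries any set onto any other one of the same measure by
piecewise powers.
-/

set_option autoImplicit false

noncomputable section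

open MeasureTheory Filter Topology Set
open FA.BorelCombinatorics (iter iter_zero iter_add iter_neg_iter measurable_iter)

namespace FA.Dye

variable {X : Type*} [MeasurableSpace X] {μ : Measure X} {T : X ≃ᵐ X}

/-- The map moving a point by the power of `T` named at it. -/
def mv (T : X ≃ᵐ X) (p : X → ℤ) (x : X) : X := iter T (p x) x

theorem iter_one (x : X) : iter T 1 x = T x := by simp [iter]

theorem iter_iter_neg (a : ℤ) (x : X) : iter T a (iter T (-a) x) = x := by
  rw [← iter_add, add_neg_cancel, iter_zero]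

theorem measurable_mv {p : X → ℤ} (hp : Measurable p) : Measurable (mv T p) :=
  (measurable_from_prod_countable_left (f := fun a : X × ℤ => iter T a.2 a.1)
    fun k => measurable_iter T k).comp (measurable_id.prodMk hp)

/-- Powers of `T` preserve the measure. -/
theorem mp_iter (h : MeasurePreserving T μ μ) (k : ℤ) : MeasurePreserving (iter T k) μ μ := by
  induction k using Int.induction_on with
  | zero =>
    rw [show iter T 0 = id from funext (iter_zero T)]
    exact MeasurePreserving.id μ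
  | succ k ih =>
    rw [show iter T ((k : ℤ) + 1) = T ∘ iter T k from funext fun x => by
      rw [add_comm, iter_add, iter_one]; rfl]
    exact h.comp ih
  | pred k ih =>
    rw [show iter T (-(k : ℤ) - 1) = T.symm ∘ iter T (-k) from funext fun x => by
      rw [sub_eq_add_neg, add_comm, iter_add]; simp [iter]]
    exact (h.symm T).comp ih

theorem ae_all_iter (h : MeasurePreserving T μ μ) {P : X → Prop} (hP : ∀ᵐ x ∂μ, P x) :
    ∀ᵐ x ∂μ, ∀ k : ℤ, P (iter T k x) :=
  ae_all_iff.2 fun k => (mp_iter h k).quasiMeasurePreserving.ae hP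

/-- A property holding almost everywhere holds after moving by powers. -/
theorem ae_mv (h : MeasurePreserving T μ μ) {P : X → Prop} (hP : ∀ᵐ x ∂μ, P x) :
    ∀ᵐ x ∂μ, ∀ p : X → ℤ, P (mv T p x) :=
  (ae_all_iter h hP).mono fun _ hx _ => hx _

variable [IsProbabilityMeasure μ]

/-- An atomless probability measure takes every value between zero and that of a given set on
its subsets. -/
theorem exists_subset_real [StandardBorelSpace X] (hna : ∀ x, μ {x} = 0) {A : Set X}
    (hA : MeasurableSet A) {c : ℝ} (h0 : 0 ≤ c) (hc : c ≤ μ.real A) :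
    ∃ B ⊆ A, MeasurableSet B ∧ μ.real B = c := by
  rcases h0.eq_or_lt with rfl | h0
  · exact ⟨∅, empty_subset _, .empty, by simp⟩
  rcases hc.eq_or_lt with rfl | hc
  · exact ⟨A, Subset.rfl, hA, rfl⟩
  have he := measurableEmbedding_embeddingReal X
  set f : X → ℝ := embeddingReal X
  set L : ℝ → Set X := fun t => A ∩ f ⁻¹' Iic t with hL
  have hLm : ∀ t, MeasurableSet (L t) := fun t => hA.inter (he.measurable measurableSet_Iic)
  have hmono : Monotone L := fun s t hst => inter_subset_inter_right _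
    (preimage_mono (Iic_subset_Iic.2 hst))
  have hup : Tendsto (fun n : ℕ => μ.real (L n)) atTop (𝓝 (μ.real A)) := by
    have h1 := tendsto_measure_iUnion_atTop (μ := μ) (s := fun n : ℕ => L n)
      fun a b hab => hmono (Nat.cast_le.2 hab)
    rw [show (⋃ n : ℕ, L n) = A from subset_antisymm (iUnion_subset fun _ => inter_subset_left)
      fun x hx => mem_iUnion.2 ⟨⌈f x⌉₊, hx, Nat.le_ceil (f x)⟩] at h1
    exact (ENNReal.tendsto_toReal (measure_ne_top _ _)).comp h1
  have hdown : Tendsto (fun n : ℕ => μ.real (L (-(n : ℝ)))) atTop (𝓝 0) := by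
    have h1 := tendsto_measure_iInter_atTop (μ := μ) (s := fun n : ℕ => L (-(n : ℝ)))
      (fun n => (hLm _).nullMeasurableSet) (fun a b hab => hmono (by simpa using hab))
      ⟨0, measure_ne_top _ _⟩
    rw [show (⋂ n : ℕ, L (-(n : ℝ))) = ∅ from eq_empty_of_forall_notMem fun x hx => by
      obtain ⟨n, hn⟩ := exists_nat_gt (-f x)
      have : f x ≤ -(n : ℝ) := (mem_iInter.1 hx n).2
      linarith, measure_empty] at h1
    exact (ENNReal.tendsto_toReal ENNReal.zero_ne_top).comp h1
  obtain ⟨a, ha⟩ := (hdown.eventually_lt_const h0).exists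
  obtain ⟨b, hb⟩ := (hup.eventually_const_lt hc).exists
  set S : Set ℝ := {t | μ.real (L t) ≤ c}
  have hSb : BddAbove S := ⟨b, fun t ht => le_of_not_gt fun hbt =>
    absurd ((measureReal_mono (hmono hbt.le)).trans (show μ.real (L t) ≤ c from ht)) hb.not_ge⟩
  set t := sSup S
  have hlow : μ.real (A ∩ f ⁻¹' Iio t) ≤ c := by
    obtain ⟨u, humono, hult, hu⟩ := exists_seq_strictMono_tendsto t
    have h1 := tendsto_measure_iUnion_atTop (μ := μ) (s := fun n => L (u n))
      fun a b hab => hmono (humono.monotone hab)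
    rw [show (⋃ n, L (u n)) = A ∩ f ⁻¹' Iio t from subset_antisymm
      (iUnion_subset fun n => inter_subset_inter_right _ fun x hx =>
        lt_of_le_of_lt (show f x ≤ u n from hx) (hult n))
      fun x hx => by
        obtain ⟨n, hn⟩ := (hu.eventually_const_lt (show f x < t from hx.2)).exists
        exact mem_iUnion.2 ⟨n, hx.1, hn.le⟩] at h1
    refine le_of_tendsto ((ENNReal.tendsto_toReal (measure_ne_top _ _)).comp h1)
      (Eventually.of_forall fun n => ?_)
    obtain ⟨s, hs, hns⟩ := exists_lt_of_lt_csSup ⟨_, (show -(a : ℝ) ∈ S from ha.le)⟩ (hult n)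
    exact (measureReal_mono (hmono hns.le)).trans (show μ.real (L s) ≤ c from hs)
  have hhigh : c ≤ μ.real (L t) := by
    obtain ⟨u, humono, hult, hu⟩ := exists_seq_strictAnti_tendsto t
    have h1 := tendsto_measure_iInter_atTop (μ := μ) (s := fun n => L (u n))
      (fun n => (hLm _).nullMeasurableSet) (fun a b hab => hmono (humono.antitone hab))
      ⟨0, measure_ne_top _ _⟩
    rw [show (⋂ n, L (u n)) = L t from subset_antisymm (fun x hx =>
      ⟨(mem_iInter.1 hx 0).1, ge_of_tendsto hu
        (Eventually.of_forall fun n => show f x ≤ u n from (mem_iInter.1 hx n).2)⟩)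
      (subset_iInter fun n => hmono (hult n).le)] at h1
    refine ge_of_tendsto ((ENNReal.tendsto_toReal (measure_ne_top _ _)).comp h1)
      (Eventually.of_forall fun n => le_of_lt (lt_of_not_ge fun hn => ?_))
    exact (hult n).not_ge (le_csSup hSb hn)
  have hz : μ.real (f ⁻¹' {t}) = 0 := by
    rw [measureReal_def, (show (f ⁻¹' {t}).Subsingleton from fun x hx y hy =>
      he.injective (Eq.trans hx (Eq.symm hy))).induction_on (p := fun s => μ s = 0)
      measure_empty hna, ENNReal.toReal_zero]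
  refine ⟨A ∩ f ⁻¹' Iio t, inter_subset_left, hA.inter (he.measurable measurableSet_Iio),
    le_antisymm hlow (hhigh.trans ((measureReal_mono ?_).trans
      ((measureReal_union_le (A ∩ f ⁻¹' Iio t) (f ⁻¹' {t})).trans_eq (by rw [hz, add_zero]))))⟩
  intro x hx
  rcases (show f x ≤ t from hx.2).lt_or_eq with h | h
  exacts [Or.inl ⟨hx.1, h⟩, Or.inr h]

/-- Disjoint subsets of a given measure. -/
theorem exists_pieces [StandardBorelSpace X] (hna : ∀ x, μ {x} = 0) {q : ℝ} (hq : 0 ≤ q)
    (N : ℕ) : ∀ {A : Set X}, MeasurableSet A → N * q ≤ μ.real A →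
    ∃ P : Fin N → Set X, (∀ i, MeasurableSet (P i) ∧ P i ⊆ A ∧ μ.real (P i) = q) ∧
      Pairwise fun i j => Disjoint (P i) (P j) := by
  induction N with
  | zero => exact fun _ _ => ⟨fun _ => ∅, fun i => i.elim0, fun i => i.elim0⟩
  | succ N ih =>
    intro A hA hN
    push_cast at hN
    obtain ⟨B, hBA, hB, hBq⟩ := exists_subset_real hna hA hq (by nlinarith [N.cast_nonneg (α := ℝ)])
    obtain ⟨P, hP, hd⟩ := ih (hA.diff hB) (by
      rw [measureReal_sdiff hBA hB, hBq]
      linarith)
    refine ⟨Fin.cons B P, Fin.cases ⟨hB, hBA, hBq⟩ fun i =>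
      ⟨(hP i).1, (hP i).2.1.trans sdiff_subset, (hP i).2.2⟩, ?_⟩
    intro i j hij
    induction i using Fin.cases with
    | zero =>
      induction j using Fin.cases with
      | zero => exact absurd rfl hij
      | succ j =>
        simp only [Fin.cons_zero, Fin.cons_succ]
        exact disjoint_sdiff_right.mono_right (hP j).2.1
    | succ i =>
      induction j using Fin.cases with
      | zero =>
        simp only [Fin.cons_zero, Fin.cons_succ]
        exact disjoint_sdiff_left.mono_left (hP i).2.1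
      | succ j =>
        simp only [Fin.cons_succ]
        exact hd fun h => hij (congrArg Fin.succ h)

/-- A positive set is reached from almost every point. -/
theorem ae_exists_iter_mem (h : Ergodic T μ) {F : Set X} (hF : MeasurableSet F) (hF0 : μ F ≠ 0) :
    ∀ᵐ x ∂μ, ∃ t : ℕ, iter T (-(t : ℤ)) x ∈ F := by
  set V : Set X := ⋃ t : ℕ, iter T (-(t : ℤ)) ⁻¹' F
  have hVm : MeasurableSet V := .iUnion fun t => measurable_iter T _ hF
  have hsub : V ⊆ T ⁻¹' V := fun x hx => by
    obtain ⟨t, ht⟩ := mem_iUnion.1 hx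
    refine mem_iUnion.2 ⟨t + 1, ?_⟩
    show iter T (-((t + 1 : ℕ) : ℤ)) (T x) ∈ F
    rw [← iter_one (T := T) x, ← iter_add]
    simpa using ht
  rcases h.ae_empty_or_univ_of_ae_le_preimage hVm.nullMeasurableSet hsub.eventuallyLE with h' | h'
  · exact absurd (measure_mono_null (fun x hx => mem_iUnion.2 ⟨0, by simpa [iter_zero] using hx⟩)
      (ae_eq_empty.1 h')) hF0
  · filter_upwards [eventuallyEq_univ.1 h'] with x hx using mem_iUnion.1 hx

/-- **Towers.** An ergodic automorphism of an atomless standard space has towers of every height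
filling nearly the space. -/
theorem exists_tower [StandardBorelSpace X] (h : Ergodic T μ) (hna : ∀ x, μ {x} = 0) {N : ℕ}
    (hN : 0 < N) {ε : ℝ} (hε : 0 < ε) :
    ∃ S, MeasurableSet S ∧ (∀ x ∈ S, ∀ a : ℕ, 0 < a → a < N → iter T a x ∉ S) ∧
      1 - ε ≤ N * μ.real S := by
  have hN' : (0 : ℝ) < N := Nat.cast_pos.2 hN
  obtain ⟨F, -, hF, hFr⟩ := exists_subset_real hna MeasurableSet.univ
    (le_min zero_le_one (div_pos hε hN').le) (by simp : min 1 (ε / N) ≤ μ.real univ)
  have hF0 : μ F ≠ 0 := fun h0 => by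
    rw [measureReal_def, h0, ENNReal.toReal_zero] at hFr
    exact (lt_min one_pos (div_pos hε hN')).ne hFr
  have hp : ∀ k : ℤ, MeasurableSet {x | iter T k x ∈ F} := fun k => measurable_iter T k hF
  set S : Set X := {x | ∃ t : ℕ, N ∣ t ∧ iter T (-(t : ℤ)) x ∈ F ∧
    (∀ s < t, iter T (-(s : ℤ)) x ∉ F) ∧ ∀ s : ℕ, 0 < s → s < N → iter T s x ∉ F} with hS
  have hSm : MeasurableSet S := by
    rw [show S = ⋃ t : ℕ, {_x : X | N ∣ t} ∩ ({x | iter T (-(t : ℤ)) x ∈ F} ∩
        ((⋂ s ∈ Finset.range t, {x | iter T (-(s : ℤ)) x ∈ F}ᶜ) ∩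
          ⋂ s ∈ Finset.Ioo 0 N, {x | iter T ((s : ℕ) : ℤ) x ∈ F}ᶜ)) by ext x; simp [hS]]
    exact .iUnion fun t => (MeasurableSet.const _).inter ((hp _).inter
      ((Finset.measurableSet_biInter _ fun s _ => (hp _).compl).inter
        (Finset.measurableSet_biInter _ fun s _ => (hp _).compl)))
  refine ⟨S, hSm, ?_, ?_⟩
  · rintro x ⟨t, htN, htF, htmin, hfree⟩ a ha haN ⟨t', htN', htF', htmin', -⟩
    rw [← iter_add] at htF'
    have h1 : a ≤ t' := by
      by_contra hlt
      exact hfree (a - t') (by omega) (by omega)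
        (by rwa [show ((a - t' : ℕ) : ℤ) = -(t' : ℤ) + a by omega])
    have h2 : t ≤ t' - a := by
      by_contra hlt
      exact htmin (t' - a) (by omega)
        (by rwa [show (-((t' - a : ℕ) : ℤ)) = -(t' : ℤ) + a by omega])
    have h3 : t' ≤ t + a := by
      by_contra hlt
      refine htmin' (t + a) (by omega) ?_
      rwa [← iter_add, show -((t + a : ℕ) : ℤ) + a = -(t : ℤ) by omega]
    have h4 : N ∣ a := by
      have : N ∣ t' - t := Nat.dvd_sub htN' htN
      rwa [show t' - t = a by omega] at this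
    exact absurd (Nat.le_of_dvd ha h4) (by omega)
  · have hcover : ∀ᵐ x ∂μ, x ∈ (⋃ i ∈ Finset.range N, iter T (-(i : ℤ)) ⁻¹' S) ∪
        ⋃ s ∈ Finset.Ioo 0 N, iter T ((s : ℕ) : ℤ) ⁻¹' F := by
      classical
      filter_upwards [ae_exists_iter_mem h hF hF0] with x hex
      by_cases hfree : ∀ s : ℕ, 0 < s → s < N → iter T s x ∉ F
      swap
      · push Not at hfree
        obtain ⟨s, hs0, hsN, hs⟩ := hfree
        exact Or.inr (mem_biUnion (x := s) (Finset.mem_Ioo.2 ⟨hs0, hsN⟩) hs)
      set t := Nat.find hex with ht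
      have hm : t % N ≤ t := Nat.mod_le _ _
      refine Or.inl (mem_biUnion (x := t % N) (Finset.mem_range.2 (Nat.mod_lt _ hN))
        ⟨t - t % N, Nat.dvd_sub_mod t, ?_, fun s hs => ?_, fun s hs0 hsN => ?_⟩)
      · rw [← iter_add, show -((t - t % N : ℕ) : ℤ) + -((t % N : ℕ) : ℤ) = -(t : ℤ) by omega]
        exact Nat.find_spec hex
      · rw [← iter_add, show -(s : ℤ) + -((t % N : ℕ) : ℤ) = -((s + t % N : ℕ) : ℤ) by omega]
        exact Nat.find_min hex (by omega)
      · rw [← iter_add]
        rcases le_or_gt s (t % N) with hle | hgt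
        · rw [show (s : ℤ) + -((t % N : ℕ) : ℤ) = -((t % N - s : ℕ) : ℤ) by omega]
          exact Nat.find_min hex (by omega)
        · rw [show (s : ℤ) + -((t % N : ℕ) : ℤ) = ((s - t % N : ℕ) : ℤ) by omega]
          exact hfree _ (by omega) (by omega)
    have e1 : ∀ (k : ℤ) {A : Set X}, MeasurableSet A → μ.real (iter T k ⁻¹' A) = μ.real A :=
      fun k A hA => by
        rw [measureReal_def, (mp_iter h.toMeasurePreserving k).measure_preimage
          hA.nullMeasurableSet, measureReal_def]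
    have h1 : (1 : ℝ) ≤ μ.real ((⋃ i ∈ Finset.range N, iter T (-(i : ℤ)) ⁻¹' S) ∪
        ⋃ s ∈ Finset.Ioo 0 N, iter T ((s : ℕ) : ℤ) ⁻¹' F) := by
      rw [← probReal_univ (μ := μ)]
      exact ENNReal.toReal_mono (measure_ne_top μ _)
        (measure_mono_ae (hcover.mono fun x hx _ => hx))
    have h2 : μ.real (⋃ i ∈ Finset.range N, iter T (-(i : ℤ)) ⁻¹' S) ≤ N * μ.real S :=
      (measureReal_biUnion_finset_le _ _).trans_eq (by simp [e1 _ hSm])
    have h3 : μ.real (⋃ s ∈ Finset.Ioo 0 N, iter T ((s : ℕ) : ℤ) ⁻¹' F) ≤ N * μ.real F := by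
      refine (measureReal_biUnion_finset_le _ _).trans ?_
      simp only [e1 _ hF, Finset.sum_const, nsmul_eq_mul, Nat.card_Ioo]
      exact mul_le_mul_of_nonneg_right (Nat.cast_le.2 (by omega)) measureReal_nonneg
    have h4 : (N : ℝ) * μ.real F ≤ ε := by
      rw [hFr]
      exact (mul_le_mul_of_nonneg_left (min_le_right _ _) hN'.le).trans_eq
        (mul_div_cancel₀ _ hN'.ne')
    linarith [h1.trans (measureReal_union_le _ _)]

/-- A pair of exponent functions carrying `A` onto `B` and back, up to null sets. -/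
structure PIso (T : X ≃ᵐ X) (μ : Measure X) (A B : Set X) where
  /-- The exponent on `A`. -/
  fwd : X → ℤ
  /-- The exponent on `B`. -/
  bwd : X → ℤ
  fwd_meas : Measurable fwd
  bwd_meas : Measurable bwd
  spec : ∀ᵐ x ∂μ, (x ∈ A → mv T fwd x ∈ B ∧ mv T bwd (mv T fwd x) = x) ∧
    (x ∈ B → mv T bwd x ∈ A ∧ mv T fwd (mv T bwd x) = x)

/-- Follow a piecewise translation by one power of `T`. -/
def PIso.shiftBy {A B : Set X} (h : MeasurePreserving T μ μ) (e : PIso T μ A B) (j : ℤ) :
    PIso T μ A (iter T (-j) ⁻¹' B) where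
  fwd x := e.fwd x + j
  bwd x := e.bwd (iter T (-j) x) + -j
  fwd_meas := e.fwd_meas.add_const j
  bwd_meas := (e.bwd_meas.comp (measurable_iter T _)).add_const (-j)
  spec := by
    filter_upwards [ae_all_iter h e.spec] with x hx
    have hf : ∀ y, mv T (fun z => e.fwd z + j) y = iter T j (mv T e.fwd y) := fun y => by
      simp only [mv, ← iter_add, add_comm]
    have hb : ∀ y, mv T (fun z => e.bwd (iter T (-j) z) + -j) y =
        mv T e.bwd (iter T (-j) y) := fun y => by simp only [mv, ← iter_add]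
    refine ⟨fun hA => ?_, fun hB => ?_⟩
    · have h0 := (hx 0).1 (by rwa [iter_zero])
      rw [iter_zero] at h0
      rw [hf, hb, iter_neg_iter]
      exact ⟨by simpa [mem_preimage, iter_neg_iter] using h0.1, h0.2⟩
    · have h0 := (hx (-j)).2 hB
      rw [hb, hf, h0.2, iter_iter_neg]
      exact ⟨h0.1, rfl⟩

/-- **Hopf's equivalence lemma.** Sets of equal measure are carried onto each other by piecewise
powers of an ergodic automorphism. -/
theorem exists_piso (h : Ergodic T μ) {A B : Set X} (hA : MeasurableSet A) (hB : MeasurableSet B)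
    (hAB : μ A = μ B) : Nonempty (PIso T μ A B) := by
  classical
  have hT := h.toMeasurePreserving
  let k : ℕ → ℤ := Equiv.intEquivNat.symm
  let next : ℕ → Set X × Set X → Set X × Set X := fun n p =>
    (p.1 \ iter T (k n) ⁻¹' p.2, p.2 \ iter T (-k n) ⁻¹' p.1)
  let R : ℕ → Set X × Set X := fun n => Nat.rec (A, B) (fun n p => next n p) n
  have hR : ∀ n, R (n + 1) = next n (R n) := fun n => rfl
  have hm : ∀ n, MeasurableSet (R n).1 ∧ MeasurableSet (R n).2 ∧ μ (R n).1 = μ (R n).2 := by
    intro n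
    induction n with
    | zero => exact ⟨hA, hB, hAB⟩
    | succ n ih =>
      rw [hR]
      have hC : MeasurableSet (iter T (k n) ⁻¹' (R n).2) := measurable_iter T _ ih.2.1
      have hD : MeasurableSet (iter T (-k n) ⁻¹' (R n).1) := measurable_iter T _ ih.1
      have hCD : μ ((R n).1 ∩ iter T (k n) ⁻¹' (R n).2) =
          μ ((R n).2 ∩ iter T (-k n) ⁻¹' (R n).1) := by
        rw [← (mp_iter hT (-k n)).measure_preimage (ih.1.inter hC).nullMeasurableSet]
        congr 1
        ext x
        simp [iter_iter_neg, and_comm]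
      refine ⟨ih.1.diff hC, ih.2.1.diff hD, ?_⟩
      show μ (_ \ _) = μ (_ \ _)
      rw [← sdiff_self_inter, ← sdiff_self_inter (s := (R n).2),
        measure_sdiff inter_subset_left (ih.1.inter hC).nullMeasurableSet (measure_ne_top _ _),
        measure_sdiff inter_subset_left (ih.2.1.inter hD).nullMeasurableSet (measure_ne_top _ _),
        hCD, ih.2.2]
  have hanti : Antitone (fun n => (R n).1) ∧ Antitone (fun n => (R n).2) :=
    ⟨antitone_nat_of_succ_le fun n => sdiff_subset, antitone_nat_of_succ_le fun n => sdiff_subset⟩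
  have hnull : μ (⋂ n, (R n).1) = 0 ∧ μ (⋂ n, (R n).2) = 0 := by
    have heq : μ (⋂ n, (R n).1) = μ (⋂ n, (R n).2) := by
      refine tendsto_nhds_unique (tendsto_measure_iInter_atTop
        (fun n => (hm n).1.nullMeasurableSet) hanti.1 ⟨0, measure_ne_top _ _⟩) ?_
      simp only [Function.comp_def, (hm _).2.2]
      exact tendsto_measure_iInter_atTop (fun n => (hm n).2.1.nullMeasurableSet) hanti.2
        ⟨0, measure_ne_top _ _⟩
    by_cases h0 : μ (⋂ n, (R n).2) = 0
    · exact ⟨heq.trans h0, h0⟩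
    suffices μ (⋂ n, (R n).1) = 0 from ⟨this, heq.symm.trans this⟩
    refine measure_mono_null (fun x hx => ?_)
      (ae_iff.1 (ae_exists_iter_mem h (.iInter fun n => (hm n).2.1) h0))
    rintro ⟨t, ht⟩
    set n := Equiv.intEquivNat (-(t : ℤ))
    have hk : k n = -(t : ℤ) := Equiv.symm_apply_apply _ _
    exact (show x ∈ (R n).1 \ iter T (k n) ⁻¹' (R n).2 from mem_iInter.1 hx (n + 1)).2
      (show iter T (k n) x ∈ (R n).2 by rw [hk]; exact mem_iInter.1 ht n)
  let C : ℕ → Set X := fun n => (R n).1 ∩ iter T (k n) ⁻¹' (R n).2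
  let D : ℕ → Set X := fun n => (R n).2 ∩ iter T (-k n) ⁻¹' (R n).1
  have hex : ∀ x, ∃ n, x ∈ C n ∨ ∀ m, x ∉ C m := fun x =>
    (em (∃ n, x ∈ C n)).elim (fun ⟨n, hn⟩ => ⟨n, Or.inl hn⟩) fun hn =>
      ⟨0, Or.inr fun m hm => hn ⟨m, hm⟩⟩
  have hex' : ∀ x, ∃ n, x ∈ D n ∨ ∀ m, x ∉ D m := fun x =>
    (em (∃ n, x ∈ D n)).elim (fun ⟨n, hn⟩ => ⟨n, Or.inl hn⟩) fun hn =>
      ⟨0, Or.inr fun m hm => hn ⟨m, hm⟩⟩
  have hCm : ∀ n, MeasurableSet (C n) ∧ MeasurableSet (D n) := fun n =>
    ⟨(hm n).1.inter (measurable_iter T _ (hm n).2.1),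
      (hm n).2.1.inter (measurable_iter T _ (hm n).1)⟩
  have huniq : ∀ x n m, n < m → ¬(x ∈ C n ∧ x ∈ C m) ∧ ¬(x ∈ D n ∧ x ∈ D m) :=
    fun x n m hnm => ⟨fun ⟨h1, h2⟩ =>
      (show x ∈ (R (n + 1)).1 from hanti.1 hnm h2.1).2 h1.2, fun ⟨h1, h2⟩ =>
      (show x ∈ (R (n + 1)).2 from hanti.2 hnm h2.1).2 h1.2⟩
  have hfC : ∀ x n, x ∈ C n → k (Nat.find (hex x)) = k n := fun x n hn => by
    rcases Nat.find_spec (hex x) with h1 | h1
    · rcases lt_trichotomy (Nat.find (hex x)) n with hl | hl | hl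
      · exact absurd ⟨h1, hn⟩ (huniq x _ _ hl).1
      · rw [hl]
      · exact absurd ⟨hn, h1⟩ (huniq x _ _ hl).1
    · exact absurd hn (h1 n)
  have hfD : ∀ x n, x ∈ D n → k (Nat.find (hex' x)) = k n := fun x n hn => by
    rcases Nat.find_spec (hex' x) with h1 | h1
    · rcases lt_trichotomy (Nat.find (hex' x)) n with hl | hl | hl
      · exact absurd ⟨h1, hn⟩ (huniq x _ _ hl).2
      · rw [hl]
      · exact absurd ⟨hn, h1⟩ (huniq x _ _ hl).2
    · exact absurd hn (h1 n)
  have hnC : ∀ E : ℕ → Set X, (∀ n, MeasurableSet (E n)) →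
      ∀ n, MeasurableSet {x | x ∈ E n ∨ ∀ m, x ∉ E m} := fun E hE n => by
    rw [show {x | x ∈ E n ∨ ∀ m, x ∉ E m} = E n ∪ ⋂ m, (E m)ᶜ by ext x; simp]
    exact (hE n).union (.iInter fun m => (hE m).compl)
  refine ⟨⟨fun x => k (Nat.find (hex x)), fun x => -k (Nat.find (hex' x)),
    (measurable_of_countable k).comp (measurable_find hex (hnC C fun n => (hCm n).1)),
    (measurable_of_countable fun n => -k n).comp
      (measurable_find hex' (hnC D fun n => (hCm n).2)), ?_⟩⟩
  · have h1 : ∀ᵐ x ∂μ, x ∉ ⋂ n, (R n).1 := measure_eq_zero_iff_ae_notMem.1 hnull.1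
    have h2 : ∀ᵐ x ∂μ, x ∉ ⋂ n, (R n).2 := measure_eq_zero_iff_ae_notMem.1 hnull.2
    filter_upwards [h1, h2] with x hx hx'
    refine ⟨fun hxA => ?_, fun hxB => ?_⟩
    · obtain ⟨n, hn⟩ : ∃ n, x ∈ C n := by
        by_contra hne
        refine hx (mem_iInter.2 fun n => ?_)
        induction n with
        | zero => exact hxA
        | succ n ih => exact ⟨ih, fun h' => hne ⟨n, ih, h'⟩⟩
      simp only [mv, hfC x n hn]
      have hD' : iter T (k n) x ∈ D n :=
        ⟨hn.2, by rw [mem_preimage, iter_neg_iter]; exact hn.1⟩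
      exact ⟨hanti.2 (Nat.zero_le n) hD'.1, by rw [hfD _ n hD', iter_neg_iter]⟩
    · obtain ⟨n, hn⟩ : ∃ n, x ∈ D n := by
        by_contra hne
        refine hx' (mem_iInter.2 fun n => ?_)
        induction n with
        | zero => exact hxB
        | succ n ih => exact ⟨ih, fun h' => hne ⟨n, ih, h'⟩⟩
      simp only [mv, hfD x n hn]
      have hC' : iter T (-k n) x ∈ C n :=
        ⟨hn.2, by rw [mem_preimage, iter_iter_neg]; exact hn.1⟩
      exact ⟨hanti.1 (Nat.zero_le n) hC'.1, by rw [hfC _ n hC', iter_iter_neg]⟩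

end FA.Dye

end
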