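import Fermat.Agent.Dye.Step
import Mathlib.Probability.ProductMeasure
import Mathlib.Probability.Distributions.Uniform
import Mathlib.MeasureTheory.Constructions.Polish.Basic

/-!
# Dye's theorem

Iterating the refinement gives a measure isomorphism with the fair coins under which the orbits
become the classes of eventual agreement.
-/

set_option autoImplicit false

noncomputable section

open MeasureTheory Set Filter Topology
open FA.BorelCombinatorics (iter iter_zero iter_add iter_neg_iter measurable_iter)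

namespace FA.Dye

/-- The fair coins. -/
def fair : Measure (ℕ → Bool) := Measure.infinitePi fun _ => (PMF.uniformOfFintype Bool).toMeasure

instance : IsProbabilityMeasure fair := by
  unfold fair
  infer_instance

/-- The sequence with the given first bits and no others. -/
def pad {n : ℕ} (s : Fin n → Bool) (i : ℕ) : Bool := if h : i < n then s ⟨i, h⟩ else false

/-- The first bits of `f` followed by those of `g`. -/
def patch (n : ℕ) (f g : ℕ → Bool) (i : ℕ) : Bool := if i < n then f i else g i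

theorem pad_apply {n : ℕ} (s : Fin n → Bool) (i : Fin n) : pad s i = s i := by simp [pad]

variable {X : Type*} [MeasurableSpace X] {μ : Measure X} {T : X ≃ᵐ X}

/-- An array with binary addresses of some length. -/
structure Level (T : X ≃ᵐ X) (μ : Measure X) where
  /-- The length of the addresses. -/
  n : ℕ
  /-- The array. -/
  arr : Arr T μ univ (Fin n → Bool)

/-- `l'` refines `l`, nearly decides `B` and nearly contains `T`. -/
structure Next (l l' : Level T μ) (B : Set X) (ε : ℝ) : Prop where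
  lt : l.n < l'.n
  keep : ∀ x i, i < l.n → pad (l'.arr.addr x) i = pad (l.arr.addr x) i
  extends_moves : ∀ᵐ x ∂μ, ∀ s, ∃ s', mv T (l'.arr.pw s') x = mv T (l.arr.pw s) x ∧
    ∀ i < l'.n, pad s' i = patch l.n (pad s) (pad (l'.arr.addr x)) i
  decide_set : ∃ E : Set (Fin l'.n → Bool), μ.real {x | ¬(x ∈ B ↔ l'.arr.addr x ∈ E)} < ε
  contains_map : μ.real {x | ∀ p, mv T (l'.arr.pw p) x ≠ T x} < ε

theorem pad_append {m n : ℕ} (a : Fin m → Bool) (b : Fin n → Bool) (i : ℕ) :
    pad (Fin.append a b) i = patch m (pad a) (fun j => pad b (j - m)) i := by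
  simp only [pad, patch]
  by_cases h : i < m
  · rw [if_pos h, dif_pos (by omega), dif_pos h]
    exact Fin.append_left a b ⟨i, h⟩
  · rw [if_neg h]
    by_cases h' : i < m + n
    · rw [dif_pos h', dif_pos (show i - m < n by omega),
        show (⟨i, h'⟩ : Fin (m + n)) = Fin.natAdd m ⟨i - m, by omega⟩ from
          Fin.ext (show i = m + (i - m) by omega)]
      exact Fin.append_right a b _
    · rw [dif_neg h', dif_neg (show ¬i - m < n by omega)]

variable [IsProbabilityMeasure μ] [StandardBorelSpace X]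

theorem exists_next (h : Ergodic T μ) (hna : ∀ x, μ {x} = 0) (l : Level T μ) {B : Set X}
    (hB : MeasurableSet B) {ε : ℝ} (hε : 0 < ε) : ∃ l', Next l l' B ε := by
  obtain ⟨d, M, ⟨E, hE⟩, hT⟩ := exists_refinement h hna l.arr (fun _ => false) hB hε
  set R := l.arr.refine h.toMeasurePreserving (fun _ => false) M
  let e := Fin.appendEquiv l.n (d + 1) (α := Bool)
  refine ⟨⟨l.n + (d + 1), R.relabel e⟩,
    ⟨by dsimp only; omega, fun x i hi => ?_, ?_, ⟨e '' E, ?_⟩, ?_⟩⟩
  · show pad (Fin.append (R.addr x).1 (R.addr x).2) i = _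
    rw [pad_append, patch, if_pos hi]
    rfl
  · filter_upwards [Arr.refine_extends h.toMeasurePreserving l.arr (fun _ => false) M] with x hx s
    refine ⟨e (s, (R.addr x).2), ?_, fun i _ => ?_⟩
    · show mv T (R.pw (e.symm (e (s, (R.addr x).2)))) x = _
      rw [e.symm_apply_apply]
      exact hx s
    · show pad (Fin.append s (R.addr x).2) i =
        patch l.n (pad s) (pad (Fin.append (R.addr x).1 (R.addr x).2)) i
      simp only [pad_append, patch]
      split_ifs <;> rfl
  · have : {x | ¬(x ∈ B ↔ (R.relabel e).addr x ∈ e '' E)} = {x | ¬(x ∈ B ↔ R.addr x ∈ E)} := by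
      ext x
      simp [Arr.relabel]
    rw [this]
    exact hE
  · refine lt_of_le_of_lt
      (measureReal_mono (s₂ := {x | ∀ p, mv T (R.pw p) x ≠ T x}) fun x hx p => ?_) hT
    have := hx (e p)
    simp only [Arr.relabel, e.symm_apply_apply] at this
    exact this

/-- A measure isomorphism with the fair coins carrying orbits to classes of eventual agreement. -/
structure Model (T : X ≃ᵐ X) (μ : Measure X) where
  /-- The invariant conull set. -/
  G : Set X
  /-- The isomorphism. -/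
  Φ : X → ℕ → Bool
  /-- Its inverse. -/
  Ψ : (ℕ → Bool) → X
  measurableSet_G : MeasurableSet G
  measurableSet_image : MeasurableSet (Φ '' G)
  measure_compl_G : μ Gᶜ = 0
  iter_mem : ∀ (k : ℤ) {x}, x ∈ G → iter T k x ∈ G
  mp_Φ : MeasurePreserving Φ μ fair
  mp_Ψ : MeasurePreserving Ψ fair μ
  left_inv : ∀ x ∈ G, Ψ (Φ x) = x
  orbit_iff : ∀ x ∈ G, ∀ x' ∈ G, (∃ k, iter T k x = x') ↔ ∀ᶠ i in atTop, Φ x i = Φ x' i
  saturated : ∀ x ∈ G, ∀ y, (∀ᶠ i in atTop, Φ x i = y i) → y ∈ Φ '' G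

omit [StandardBorelSpace X] in
theorem map_eq_fair {Φ : X → ℕ → Bool} (hΦ : Measurable Φ) {n : ℕ → ℕ} (hn : ∀ j, j ≤ n j)
    (hfib : ∀ j (f : Fin (n j) → Bool),
      μ.real {x | (fun i : Fin (n j) => Φ x i) = f} = 1 / 2 ^ n j) : μ.map Φ = fair := by
  classical
  have : IsProbabilityMeasure (μ.map Φ) := Measure.isProbabilityMeasure_map hΦ.aemeasurable
  have key : ∀ j, (μ.map Φ).map (fun y (i : Fin (n j)) => y i) =
      fair.map (fun y (i : Fin (n j)) => y i) := fun j => by
    have hr : Measurable fun (y : ℕ → Bool) (i : Fin (n j)) => y i :=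
      measurable_pi_lambda _ fun i => measurable_pi_apply _
    refine Measure.ext_of_singleton fun f => ?_
    rw [Measure.map_apply hr (measurableSet_singleton f),
      Measure.map_apply hr (measurableSet_singleton f),
      Measure.map_apply hΦ (hr (measurableSet_singleton f))]
    have e : (fun (y : ℕ → Bool) (i : Fin (n j)) => y i) ⁻¹' {f} =
        Set.pi ↑(Finset.range (n j)) fun i => {pad f i} := by
      ext y
      simp only [mem_preimage, mem_singleton_iff, funext_iff, Set.mem_pi, Finset.coe_range, mem_Iio]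
      exact ⟨fun hy i hi => by simpa [pad, hi] using hy ⟨i, hi⟩,
        fun hy i => (hy i i.2).trans (pad_apply f i)⟩
    rw [e, fair, Measure.infinitePi_pi _ fun i _ => measurableSet_singleton _, ← e,
      ← ENNReal.toReal_eq_toReal_iff' (measure_ne_top _ _)
        (ENNReal.prod_ne_top fun i _ => measure_ne_top _ _), ← measureReal_def]
    refine (hfib j f).trans ?_
    simp
  refine Measure.eq_infinitePi _ fun s t ht => ?_
  obtain ⟨m, hm⟩ := s.exists_nat_subset_range
  have hsm : Set.pi (↑s) t = (fun (y : ℕ → Bool) (i : Fin (n m)) => y i) ⁻¹'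
      {f | ∀ i ∈ s, pad f i ∈ t i} := by
    ext y
    simp only [Set.mem_pi, Finset.mem_coe, mem_preimage, mem_ofPred_eq]
    refine forall₂_congr fun i hi => ?_
    have : i < n m := lt_of_lt_of_le (Finset.mem_range.1 (hm hi)) (hn m)
    simp [pad, this]
  have hr : Measurable fun (y : ℕ → Bool) (i : Fin (n m)) => y i :=
    measurable_pi_lambda _ fun i => measurable_pi_apply _
  rw [hsm, ← Measure.map_apply hr (Set.to_countable _).measurableSet, key m,
    Measure.map_apply hr (Set.to_countable _).measurableSet, ← hsm, fair,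
    Measure.infinitePi_pi _ fun i _ => ht i]

/-- **Dye's theorem, model form.** -/
theorem exists_model (h : Ergodic T μ) (hna : ∀ x, μ {x} = 0) : Nonempty (Model T μ) := by
  classical
  have hT := h.toMeasurePreserving
  choose next hnext using fun (l : Level T μ) (j : ℕ) => exists_next h hna l
    (MeasurableSpace.measurableSet_natGeneratingSequence (α := X) (Nat.unpair j).1)
    (pow_pos (one_half_pos (α := ℝ)) j)
  let l : ℕ → Level T μ := fun j => Nat.rec ⟨0, Arr.trivial⟩ (fun j l => next l j) j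
  have hl : ∀ j, Next (l j) (l (j + 1)) _ _ := fun j => hnext (l j) j
  let n : ℕ → ℕ := fun j => (l j).n
  let a : ∀ j, X → ℕ → Bool := fun j x => pad ((l j).arr.addr x)
  have hn : StrictMono n := strictMono_nat_of_lt_succ fun j => (hl j).lt
  have hkeep : ∀ j j', j ≤ j' → ∀ x i, i < n j → a j' x i = a j x i := fun j j' hjj x i hi => by
    induction j', hjj using Nat.le_induction with
    | base => rfl
    | succ j' hjj ih => exact ((hl j').keep x i (hi.trans_le (hn.monotone hjj))).trans ih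
  let Φ : X → ℕ → Bool := fun x i => a (i + 1) x i
  have hlt : ∀ i, i < n (i + 1) := fun i => (hn.id_le (i + 1))
  have hΦa : ∀ j x i, i < n j → Φ x i = a j x i := fun j x i hi => by
    rcases le_total j (i + 1) with hj | hj
    · exact hkeep j (i + 1) hj x i hi
    · exact (hkeep (i + 1) j hj x i (hlt i)).symm
  have hΦres : ∀ j x, (fun i : Fin (n j) => Φ x i) = (l j).arr.addr x := fun j x =>
    funext fun i => (hΦa j x i i.2).trans (pad_apply _ i)
  have hΦm : Measurable Φ := measurable_pi_lambda _ fun i => measurable_to_countable' fun b => by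
    rw [show (fun x => Φ x i) ⁻¹' {b} = ⋃ (f) (_ : pad f i = b),
      {x | (l (i + 1)).arr.addr x = f} by ext x; simp [Φ, a]]
    exact .iUnion fun f => .iUnion fun _ => (l (i + 1)).arr.addr_meas f
  choose E hE using fun j => (hl j).decide_set
  have hBC : ∀ {U : ℕ → Set X}, (∀ j, μ.real (U j) < (1 / 2 : ℝ) ^ j) →
      ∀ᵐ x ∂μ, ∀ᶠ j in atTop, x ∉ U j := fun {U} hU => by
    refine ae_eventually_notMem (ne_top_of_le_ne_top ?_ (ENNReal.tsum_le_tsum fun j =>
      (ENNReal.le_ofReal_iff_toReal_le (measure_ne_top μ (U j)) (by positivity)).2 (hU j).le))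
    rw [← ENNReal.ofReal_tsum_of_nonneg (fun j => by positivity) summable_geometric_two]
    exact ENNReal.ofReal_ne_top
  -- the good set
  have hae : ∀ᵐ x ∂μ, (∀ j, (mv T ((l j).arr.pw ((l j).arr.addr x)) x = x ∧ ∀ s,
        (l j).arr.addr (mv T ((l j).arr.pw s) x) = s ∧ ∀ t, mv T ((l j).arr.pw t)
          (mv T ((l j).arr.pw s) x) = mv T ((l j).arr.pw t) x)) ∧
      (∀ j s, ∃ s', mv T ((l (j + 1)).arr.pw s') x = mv T ((l j).arr.pw s) x ∧
        ∀ i < n (j + 1), pad s' i = patch (n j) (pad s) (a (j + 1) x) i) ∧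
      (∀ᶠ j in atTop, (x ∈ MeasurableSpace.natGeneratingSequence X (Nat.unpair j).1 ↔
        (l (j + 1)).arr.addr x ∈ E j)) ∧
      ∀ᶠ j in atTop, ∃ p, mv T ((l (j + 1)).arr.pw p) x = T x := by
    filter_upwards [ae_all_iff.2 fun j => (l j).arr.spec,
      ae_all_iff.2 fun j => (hl j).extends_moves, hBC hE, hBC fun j => (hl j).contains_map]
      with x h1 h2 h3 h4
    refine ⟨fun j => ⟨(h1 j (mem_univ x)).1, fun s => ((h1 j (mem_univ x)).2 s).2⟩, h2,
      h3.mono fun j hj => not_not.1 hj, h4.mono fun j hj => ?_⟩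
    simpa using hj
  obtain ⟨Z, hZ, hZm, hZ0⟩ := exists_measurable_superset_of_null (ae_iff.1 hae)
  set G : Set X := ⋂ k : ℤ, iter T k ⁻¹' Zᶜ with hG
  have hGm : MeasurableSet G := .iInter fun k => measurable_iter T k hZm.compl
  have hG0 : μ Gᶜ = 0 := by
    rw [hG, compl_iInter]
    exact measure_iUnion_null fun k => by
      rw [← preimage_compl, compl_compl, (mp_iter hT k).measure_preimage hZm.nullMeasurableSet, hZ0]
  have hGi : ∀ (k : ℤ) {x}, x ∈ G → iter T k x ∈ G := fun k x hx => mem_iInter.2 fun k' => by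
    rw [mem_preimage, ← iter_add]
    exact mem_iInter.1 hx (k' + k)
  have hP := fun x (hx : x ∈ G) => not_not.1 fun hc =>
    (show iter T 0 x ∈ Zᶜ from mem_iInter.1 hx 0) (by rw [iter_zero]; exact hZ hc)
  have hspec := fun x hx => (hP x hx).1
  have hextend : ∀ j j', j ≤ j' → ∀ x ∈ G, ∀ s, ∃ s',
      mv T ((l j').arr.pw s') x = mv T ((l j).arr.pw s) x ∧
      ∀ i < n j', pad s' i = patch (n j) (pad s) (a j' x) i := by
    intro j j' hjj x hx s
    induction j', hjj using Nat.le_induction with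
    | base =>
      exact ⟨s, rfl, fun i hi => (if_pos hi).symm⟩
    | succ j' hjj ih =>
      obtain ⟨s', hs', hs'i⟩ := ih
      obtain ⟨s'', hs'', hs''i⟩ := (hP x hx).2.1 j' s'
      refine ⟨s'', hs''.trans hs', fun i hi => ?_⟩
      rw [hs''i i hi]
      simp only [patch]
      split_ifs with h1 h2 h2
      · rw [hs'i i h1, patch, if_pos h2]
      · rw [hs'i i h1, patch, if_neg h2, hkeep j' (j' + 1) (Nat.le_succ _) x i h1]
      · exact absurd (lt_of_lt_of_le h2 (hn.monotone hjj)) h1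
      · rfl
  have hΦmv : ∀ j, ∀ x ∈ G, ∀ s,
      Φ (mv T ((l j).arr.pw s) x) = patch (n j) (pad s) (Φ x) := by
    intro j x hx s
    funext i
    obtain ⟨s', hs', hs'i⟩ := hextend j (max j (i + 1)) (le_max_left _ _) x hx s
    have hi : i < n (max j (i + 1)) := (hlt i).trans_le (hn.monotone (le_max_right j (i + 1)))
    rw [hΦa _ _ i hi, ← hs']
    show pad ((l (max j (i + 1))).arr.addr _) i = _
    rw [((hspec x hx (max j (i + 1))).2 s').1, hs'i i hi]
    simp only [patch, hΦa _ x i hi]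
  have hedge : ∀ x ∈ G, ∀ᶠ j in atTop, ∃ p, mv T ((l j).arr.pw p) x = T x := fun x hx => by
    obtain ⟨m, hm⟩ := eventually_atTop.1 (hP x hx).2.2.2
    refine eventually_atTop.2 ⟨m + 1, fun j hj => ?_⟩
    obtain ⟨j, rfl⟩ : ∃ i, j = i + 1 := ⟨j - 1, by omega⟩
    exact hm j (by omega)
  have horbit : ∀ x ∈ G, ∀ k : ℤ, ∀ᶠ j in atTop,
      ∃ p, mv T ((l j).arr.pw p) x = iter T k x := fun x hx k => by
    induction k using Int.induction_on with
    | zero =>
      exact Eventually.of_forall fun j => ⟨_, ((hspec x hx j).1).trans (iter_zero T x).symm⟩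
    | succ k ih =>
      filter_upwards [ih, hedge _ (hGi k hx)] with j ⟨q, hq⟩ ⟨p, hp⟩
      refine ⟨p, ?_⟩
      rw [add_comm, iter_add, iter_one, ← hp, ← hq, ((hspec x hx j).2 q).2 p]
    | pred k ih =>
      filter_upwards [ih, hedge _ (hGi (-(k : ℤ) - 1) hx)] with j ⟨q, hq⟩ ⟨r, hr⟩
      set w := iter T (-(k : ℤ) - 1) x
      refine ⟨(l j).arr.addr w, ?_⟩
      have hw : T w = mv T ((l j).arr.pw q) x := by
        rw [hq, ← iter_one (T := T) w, ← iter_add]
        congr 1
        ring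
      have h1 := ((hspec w (hGi _ hx) j).2 r).2 ((l j).arr.addr w)
      rwa [hr, hw, ((hspec x hx j).2 q).2, (hspec w (hGi _ hx) j).1] at h1
  have hinj : InjOn Φ G := fun x hx x' hx' he => by
    have hsame : ∀ m, x ∈ MeasurableSpace.natGeneratingSequence X m ↔
        x' ∈ MeasurableSpace.natGeneratingSequence X m := fun m => by
      obtain ⟨J, hJ⟩ := eventually_atTop.1 ((hP x hx).2.2.1.and (hP x' hx').2.2.1)
      have hj := hJ (Nat.pair m J) (Nat.right_le_pair m J)
      simp only [Nat.unpair_pair] at hj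
      rw [hj.1, hj.2, show (l (Nat.pair m J + 1)).arr.addr x = (l (Nat.pair m J + 1)).arr.addr x' by
        rw [← hΦres (Nat.pair m J + 1) x, ← hΦres (Nat.pair m J + 1) x', he]]
    have hgen : ∀ s, MeasurableSet s → (x ∈ s ↔ x' ∈ s) := fun s hs => by
      rw [← MeasurableSpace.generateFrom_natGeneratingSequence X] at hs
      induction s, hs using MeasurableSpace.generateFrom_induction with
      | hC t ht => obtain ⟨m, rfl⟩ := ht; exact hsame m
      | empty => exact Iff.rfl
      | compl t _ ih => exact not_congr ih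
      | iUnion t _ ih => simp [ih]
    exact ((hgen {x} (measurableSet_singleton x)).1 rfl).symm
  have hsat : ∀ x ∈ G, ∀ y : ℕ → Bool, (∀ᶠ i in atTop, Φ x i = y i) →
      ∃ j s, Φ (mv T ((l j).arr.pw s) x) = y := fun x hx y hy => by
    obtain ⟨m, hm⟩ := eventually_atTop.1 hy
    refine ⟨m, fun i => y i, ?_⟩
    rw [hΦmv m x hx]
    funext i
    simp only [patch]
    split_ifs with hi
    · exact dif_pos hi
    · exact hm i ((hn.id_le m).trans (not_lt.1 hi))
  have himg : MeasurableSet (Φ '' G) := hGm.image_of_measurable_injOn hΦm hinj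
  have : Nonempty X := nonempty_of_isProbabilityMeasure μ
  let Ψ : (ℕ → Bool) → X := fun y =>
    if hy : ∃ x ∈ G, Φ x = y then hy.choose else Classical.arbitrary X
  have hleft : ∀ x ∈ G, Ψ (Φ x) = x := fun x hx => by
    have hy : ∃ x' ∈ G, Φ x' = Φ x := ⟨x, hx, rfl⟩
    simp only [Ψ, dif_pos hy]
    exact hinj hy.choose_spec.1 hx hy.choose_spec.2
  have hΨm : Measurable Ψ := fun A hA => by
    rw [show Ψ ⁻¹' A = Φ '' (G ∩ A) ∪ (Φ '' G)ᶜ ∩ {_y | Classical.arbitrary X ∈ A} by
      ext y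
      by_cases hy : ∃ x ∈ G, Φ x = y
      · obtain ⟨x, hx, rfl⟩ := hy
        simp only [mem_preimage, hleft x hx, mem_union, mem_inter_iff, mem_compl_iff,
          mem_image_of_mem Φ hx, not_true_eq_false, false_and, or_false]
        exact ⟨fun h => ⟨x, ⟨hx, h⟩, rfl⟩, fun ⟨x', hx', he⟩ => hinj hx'.1 hx he ▸ hx'.2⟩
      · have : y ∉ Φ '' G := hy
        have h' : y ∉ Φ '' (G ∩ A) := fun h => this (image_mono inter_subset_left h)
        simp only [mem_preimage, Ψ, dif_neg hy, mem_union, h', false_or, mem_inter_iff,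
          mem_compl_iff, this, not_false_eq_true, true_and, mem_ofPred_eq]]
    exact ((hGm.inter hA).image_of_measurable_injOn hΦm (hinj.mono inter_subset_left)).union
      (himg.compl.inter (MeasurableSet.const _))
  have hmap : μ.map Φ = fair := map_eq_fair hΦm (fun j => hn.id_le j) fun j f => by
    have := (l j).arr.measureReal_fiber hT f
    simp only [Arr.fiber, Fintype.card_fun, Fintype.card_bool, Fintype.card_fin] at this
    simp only [hΦres]
    push_cast at this
    exact this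
  refine ⟨⟨G, Φ, Ψ, hGm, himg, hG0, hGi, ⟨hΦm, hmap⟩, ⟨hΨm, ?_⟩, hleft,
    fun x hx x' hx' => ⟨fun ⟨k, hk⟩ => ?_, fun hy => ?_⟩, fun x hx y hy => ?_⟩⟩
  · rw [← hmap, Measure.map_map hΨm hΦm, Measure.map_congr
      (show Ψ ∘ Φ =ᵐ[μ] id from (ae_iff.2 (measure_mono_null (fun x hx => ?_) hG0))),
      Measure.map_id]
    exact fun hxG => hx (hleft x hxG)
  · obtain ⟨j, p, hp⟩ := (horbit x hx k).exists
    rw [← hk, ← hp, hΦmv j x hx]
    exact eventually_atTop.2 ⟨n j, fun i hi => (if_neg (not_lt.2 hi)).symm⟩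
  · obtain ⟨j, s, hs⟩ := hsat x hx (Φ x') hy
    exact ⟨_, hinj (hGi _ hx) hx' hs⟩
  · obtain ⟨j, s, hs⟩ := hsat x hx y hy
    exact ⟨_, hGi _ hx, hs⟩

omit [IsProbabilityMeasure μ] [StandardBorelSpace X] in
theorem Model.measure_compl_image (a : Model T μ) : fair (a.Φ '' a.G)ᶜ = 0 := by
  rw [← a.mp_Φ.map_eq, Measure.map_apply a.mp_Φ.measurable a.measurableSet_image.compl]
  exact measure_mono_null (fun z hz hzG => hz (mem_image_of_mem _ hzG)) a.measure_compl_G

/-- Two automorphisms are orbit equivalent if an isomorphism of the measures between invariant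
conull sets carries orbits onto orbits. -/
def IsOrbitEquivalent {Y : Type*} [MeasurableSpace Y] (T : X ≃ᵐ X) (μ : Measure X) (S : Y ≃ᵐ Y)
    (ν : Measure Y) : Prop :=
  ∃ (X₀ : Set X) (Y₀ : Set Y) (Φ : X → Y) (Ψ : Y → X),
    MeasurableSet X₀ ∧ MeasurableSet Y₀ ∧ μ X₀ᶜ = 0 ∧ ν Y₀ᶜ = 0 ∧
    (∀ k, ∀ x ∈ X₀, iter T k x ∈ X₀) ∧ (∀ k, ∀ y ∈ Y₀, iter S k y ∈ Y₀) ∧
    MeasurePreserving Φ μ ν ∧ MeasurePreserving Ψ ν μ ∧ MapsTo Φ X₀ Y₀ ∧ MapsTo Ψ Y₀ X₀ ∧
    (∀ x ∈ X₀, Ψ (Φ x) = x) ∧ (∀ y ∈ Y₀, Φ (Ψ y) = y) ∧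
    ∀ x ∈ X₀, ∀ x' ∈ X₀, (∃ k, iter T k x = x') ↔ ∃ k, iter S k (Φ x) = Φ x'

/-- **Dye's theorem.** -/
theorem isOrbitEquivalent {Y : Type*} [MeasurableSpace Y] [StandardBorelSpace Y] {ν : Measure Y}
    [IsProbabilityMeasure ν] {S : Y ≃ᵐ Y} (h : Ergodic T μ) (hna : ∀ x, μ {x} = 0)
    (h' : Ergodic S ν) (hna' : ∀ y, ν {y} = 0) : IsOrbitEquivalent T μ S ν := by
  obtain ⟨m⟩ := exists_model h hna
  obtain ⟨m'⟩ := exists_model h' hna'
  have hright : ∀ {y}, y ∈ m'.Φ '' m'.G → m'.Φ (m'.Ψ y) = y ∧ m'.Ψ y ∈ m'.G := by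
    rintro _ ⟨z, hz, rfl⟩
    rw [m'.left_inv z hz]
    exact ⟨rfl, hz⟩
  have hrightX : ∀ {y}, y ∈ m.Φ '' m.G → m.Φ (m.Ψ y) = y ∧ m.Ψ y ∈ m.G := by
    rintro _ ⟨z, hz, rfl⟩
    rw [m.left_inv z hz]
    exact ⟨rfl, hz⟩
  refine ⟨m.G ∩ m.Φ ⁻¹' (m'.Φ '' m'.G), m'.G ∩ m'.Φ ⁻¹' (m.Φ '' m.G), m'.Ψ ∘ m.Φ, m.Ψ ∘ m'.Φ,
    m.measurableSet_G.inter (m.mp_Φ.measurable m'.measurableSet_image),
    m'.measurableSet_G.inter (m'.mp_Φ.measurable m.measurableSet_image), ?_, ?_, ?_, ?_,
    m'.mp_Ψ.comp m.mp_Φ, m.mp_Ψ.comp m'.mp_Φ, ?_, ?_, ?_, ?_, ?_⟩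
  · rw [compl_inter, measure_union_null_iff]
    refine ⟨m.measure_compl_G, ?_⟩
    rw [← preimage_compl, m.mp_Φ.measure_preimage m'.measurableSet_image.compl.nullMeasurableSet]
    exact m'.measure_compl_image
  · rw [compl_inter, measure_union_null_iff]
    refine ⟨m'.measure_compl_G, ?_⟩
    rw [← preimage_compl, m'.mp_Φ.measure_preimage m.measurableSet_image.compl.nullMeasurableSet]
    exact m.measure_compl_image
  · rintro k x ⟨hx, z, hz, hzx⟩
    refine ⟨m.iter_mem k hx, m'.saturated z hz _ ?_⟩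
    rw [hzx]
    exact (m.orbit_iff x hx _ (m.iter_mem k hx)).1 ⟨k, rfl⟩
  · rintro k x ⟨hx, z, hz, hzx⟩
    refine ⟨m'.iter_mem k hx, m.saturated z hz _ ?_⟩
    rw [hzx]
    exact (m'.orbit_iff x hx _ (m'.iter_mem k hx)).1 ⟨k, rfl⟩
  · rintro x ⟨hx, hx'⟩
    refine ⟨(hright hx').2, ?_⟩
    show m'.Φ (m'.Ψ (m.Φ x)) ∈ m.Φ '' m.G
    rw [(hright hx').1]
    exact mem_image_of_mem _ hx
  · rintro x ⟨hx, hx'⟩
    refine ⟨(hrightX hx').2, ?_⟩
    show m.Φ (m.Ψ (m'.Φ x)) ∈ m'.Φ '' m'.G
    rw [(hrightX hx').1]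
    exact mem_image_of_mem _ hx
  · rintro x ⟨hx, hx'⟩
    show m.Ψ (m'.Φ (m'.Ψ (m.Φ x))) = x
    rw [(hright hx').1, m.left_inv x hx]
  · rintro x ⟨hx, hx'⟩
    show m'.Ψ (m.Φ (m.Ψ (m'.Φ x))) = x
    rw [(hrightX hx').1, m'.left_inv x hx]
  · rintro x ⟨hx, hx'⟩ x' ⟨hy, hy'⟩
    rw [m.orbit_iff x hx x' hy, Function.comp_apply, Function.comp_apply,
      m'.orbit_iff _ (hright hx').2 _ (hright hy').2, (hright hx').1, (hright hy').1]

end FA.Dye

end
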