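import Fermat.Agent.Dye.Array

/-!
# Refining an array

Cut the base of a tall tower by the names of its points into chunks of equal measure. The visits of
the columns to the points of one address, padded by arbitrary pieces, give an array on them; the
refined array nearly decides a given set and nearly contains the automorphism.
-/

set_option autoImplicit false

noncomputable section

open MeasureTheory Set Filter Topology
open FA.BorelCombinatorics (iter iter_zero iter_add iter_neg_iter measurable_iter)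

namespace FA.Dye

variable {X : Type*} [MeasurableSpace X] {μ : Measure X} {T : X ≃ᵐ X}

/-- Change the sets of a piecewise translation by null sets. -/
def PIso.congr {A A' B B' : Set X} (h : MeasurePreserving T μ μ) (e : PIso T μ A B)
    (hA : ∀ᵐ x ∂μ, x ∈ A ↔ x ∈ A') (hB : ∀ᵐ x ∂μ, x ∈ B ↔ x ∈ B') : PIso T μ A' B' where
  fwd := e.fwd
  bwd := e.bwd
  fwd_meas := e.fwd_meas
  bwd_meas := e.bwd_meas
  spec := by
    filter_upwards [e.spec, hA, hB, ae_mv h hA, ae_mv h hB] with x hx ha hb ha' hb'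
    exact ⟨fun hxA => ⟨(hb' _).1 (hx.1 (ha.2 hxA)).1, (hx.1 (ha.2 hxA)).2⟩,
      fun hxB => ⟨(ha' _).1 (hx.2 (hb.2 hxB)).1, (hx.2 (hb.2 hxB)).2⟩⟩

theorem measureReal_preimage_iter (h : MeasurePreserving T μ μ) (k : ℤ) {A : Set X}
    (hA : MeasurableSet A) : μ.real (iter T k ⁻¹' A) = μ.real A :=
  congrArg ENNReal.toReal ((mp_iter h k).measure_preimage hA.nullMeasurableSet)

/-- A set of equal pieces is labelled by them. -/
theorem exists_labels [IsProbabilityMeasure μ] [StandardBorelSpace X] (hna : ∀ x, μ {x} = 0)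
    {κ J : Type*} [Fintype κ] [Nonempty κ] [Fintype J] {A : Set X} (hA : MeasurableSet A)
    {q : ℝ} (hq : 0 < q) (hκ : Fintype.card κ * q = μ.real A) {P : J → Set X}
    (hP : ∀ j, MeasurableSet (P j) ∧ P j ⊆ A ∧ μ.real (P j) = q)
    (hd : Pairwise fun i j => Disjoint (P i) (P j)) :
    ∃ (addr : X → κ) (ι' : J → κ), (∀ k, MeasurableSet {x | addr x = k}) ∧
      Function.Injective ι' ∧ (∀ k, μ.real {x | x ∈ A ∧ addr x = k} = q) ∧
      (∀ j, ∀ x ∈ P j, addr x = ι' j) ∧
      ∀ j, ∀ᵐ x ∂μ, (x ∈ P j ↔ x ∈ A ∧ addr x = ι' j) := by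
  classical
  have hU : μ.real (⋃ j, P j) = Fintype.card J * q := by
    have := measureReal_biUnion_finset (μ := μ) (s := (Finset.univ : Finset J)) (f := P)
      (fun i _ j _ hne => hd hne) fun j _ => (hP j).1
    simpa [(hP _).2.2] using this
  have hcard : Fintype.card J ≤ Fintype.card κ := by
    have := (measureReal_mono (μ := μ) (iUnion_subset fun j => (hP j).2.1)).trans_eq hκ.symm
    rw [hU] at this
    exact_mod_cast le_of_mul_le_mul_right this hq
  set r := Fintype.card κ - Fintype.card J with hr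
  have hAU : MeasurableSet (A \ ⋃ j, P j) := hA.diff (.iUnion fun j => (hP j).1)
  have hrest : (r : ℝ) * q = μ.real (A \ ⋃ j, P j) := by
    rw [measureReal_sdiff (iUnion_subset fun j => (hP j).2.1) (.iUnion fun j => (hP j).1), hU, ← hκ,
      hr, Nat.cast_sub hcard]
    ring
  obtain ⟨Q, hQ, hQd⟩ := exists_pieces hna hq.le r hAU hrest.le
  set PP : J ⊕ Fin r → Set X := Sum.elim P Q with hPP
  have hPPm : ∀ i, MeasurableSet (PP i) ∧ PP i ⊆ A ∧ μ.real (PP i) = q := by
    rintro (j | j)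
    · exact hP j
    · exact ⟨(hQ j).1, (hQ j).2.1.trans sdiff_subset, (hQ j).2.2⟩
  have hPPd : Pairwise fun i j => Disjoint (PP i) (PP j) := by
    rintro (i | i) (j | j) hne
    · exact hd fun h => hne (congrArg _ h)
    · exact (disjoint_sdiff_right.mono_left (subset_iUnion P i)).mono_right (hQ j).2.1
    · exact ((disjoint_sdiff_right.mono_left (subset_iUnion P j)).mono_right (hQ i).2.1).symm
    · exact hQd fun h => hne (congrArg _ h)
  let E : J ⊕ Fin r ≃ κ := Fintype.equivOfCardEq (by simp [r]; omega)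
  let addr : X → κ := fun x => if hx : ∃ i, x ∈ PP i then E hx.choose else Classical.arbitrary κ
  have haddr : ∀ i, ∀ x ∈ PP i, addr x = E i := fun i x hx => by
    have hex : ∃ i, x ∈ PP i := ⟨i, hx⟩
    simp only [addr, dif_pos hex]
    refine congrArg E (not_not.1 fun hne => ?_)
    exact Set.disjoint_left.1 (hPPd hne) hex.choose_spec hx
  have hm : ∀ k, MeasurableSet {x | addr x = k} := fun k => by
    rw [show {x | addr x = k} = PP (E.symm k) ∪
        {x | Classical.arbitrary κ = k} ∩ (⋃ i, PP i)ᶜ by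
      ext x
      by_cases hx : ∃ i, x ∈ PP i
      · obtain ⟨i, hi⟩ := hx
        have : x ∈ ⋃ i, PP i := mem_iUnion.2 ⟨i, hi⟩
        simp only [mem_ofPred_eq, haddr i x hi, mem_union, mem_inter_iff, mem_compl_iff, this,
          not_true_eq_false, and_false, or_false]
        exact ⟨fun h => by rwa [← h, E.symm_apply_apply], fun h =>
          (haddr i x hi).symm.trans ((haddr _ x h).trans (E.apply_symm_apply k))⟩
      · have : x ∉ ⋃ i, PP i := fun h => hx (mem_iUnion.1 h)
        have h' : x ∉ PP (E.symm k) := fun h => hx ⟨_, h⟩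
        simp only [mem_ofPred_eq, addr, dif_neg hx, mem_union, h', false_or, mem_inter_iff,
          mem_compl_iff, this, not_false_eq_true, and_true]]
    exact (hPPm _).1.union ((MeasurableSet.const _).inter
      (MeasurableSet.iUnion fun i => (hPPm i).1).compl)
  have hfull : ∀ᵐ x ∂μ, x ∈ A → ∃ i, x ∈ PP i := by
    have h0 : μ.real (A \ ⋃ i, PP i) = 0 := by
      have hsum := measureReal_biUnion_finset (μ := μ) (s := (Finset.univ : Finset (J ⊕ Fin r)))
        (f := PP) (fun i _ j _ hne => hPPd hne) fun i _ => (hPPm i).1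
      simp only [Finset.mem_univ, iUnion_true, (hPPm _).2.2, Finset.sum_const, Finset.card_univ,
        nsmul_eq_mul] at hsum
      rw [measureReal_sdiff (iUnion_subset fun i => (hPPm i).2.1) (.iUnion fun i => (hPPm i).1),
        hsum, Fintype.card_congr E, hκ, sub_self]
    rw [measureReal_eq_zero_iff] at h0
    filter_upwards [measure_eq_zero_iff_ae_notMem.1 h0] with x hx hxA
    exact mem_iUnion.1 (not_not.1 fun h => hx ⟨hxA, h⟩)
  have hae : ∀ i, ∀ᵐ x ∂μ, (x ∈ PP i ↔ x ∈ A ∧ addr x = E i) := fun i => by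
    filter_upwards [hfull] with x hx
    refine ⟨fun h => ⟨(hPPm i).2.1 h, haddr i x h⟩, fun ⟨hxA, hxi⟩ => ?_⟩
    obtain ⟨i', hi'⟩ := hx hxA
    rwa [← E.injective ((haddr i' x hi').symm.trans hxi)]
  refine ⟨addr, fun j => E (Sum.inl j), hm, E.injective.comp Sum.inl_injective, fun k => ?_,
    fun j => haddr (Sum.inl j), fun j => hae (Sum.inl j)⟩
  rw [← (hPPm (E.symm k)).2.2]
  refine measureReal_congr (eventuallyEq_set.2 ?_)
  filter_upwards [hae (E.symm k)] with x hx
  rw [E.apply_symm_apply] at hx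
  exact hx.symm

variable [IsProbabilityMeasure μ] {ι : Type*} [Fintype ι]

/-- The names of the points of a tower base of height `N`. -/
abbrev Name (N : ℕ) (ι : Type*) := Fin N → Bool × ι × (Fin N → Bool)

/-- **Refining an array.** -/
theorem exists_refinement [StandardBorelSpace X] (h : Ergodic T μ) (hna : ∀ x, μ {x} = 0)
    (L : Arr T μ univ ι) (i₀ : ι) {B : Set X} (hB : MeasurableSet B) {ε : ℝ} (hε : 0 < ε) :
    ∃ (d : ℕ) (M : Arr T μ (L.fiber i₀) (Fin (d + 1) → Bool)),
      (∃ E : Set (ι × (Fin (d + 1) → Bool)),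
        μ.real {x | ¬(x ∈ B ↔ (L.refine h.toMeasurePreserving i₀ M).addr x ∈ E)} < ε) ∧
      μ.real {x | ∀ p, mv T ((L.refine h.toMeasurePreserving i₀ M).pw p) x ≠ T x} < ε := by
  classical
  have hT := h.toMeasurePreserving
  set e : X → ℤ := L.pw i₀ with he
  -- the points far from the base
  obtain ⟨K, hK⟩ : ∃ K : ℕ, μ.real {x | (K : ℤ) < |e x|} < ε / 8 := by
    have h1 := tendsto_measure_iInter_atTop (μ := μ) (s := fun n : ℕ => {x | (n : ℤ) < |e x|})
      (fun n => ((L.pw_meas i₀)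
        (Set.to_countable {z : ℤ | (n : ℤ) < |z|}).measurableSet).nullMeasurableSet)
      (fun a b hab x hx => show (a : ℤ) < |e x| from
        (Nat.cast_le.2 hab).trans_lt (show (b : ℤ) < |e x| from hx))
      ⟨0, measure_ne_top _ _⟩
    rw [show (⋂ n : ℕ, {x | (n : ℤ) < |e x|}) = ∅ from eq_empty_of_forall_notMem fun x hx => by
      have : ((e x).natAbs : ℤ) < |e x| := mem_iInter.1 hx (e x).natAbs
      simp at this, measure_empty] at h1
    exact (((ENNReal.tendsto_toReal ENNReal.zero_ne_top).comp h1).eventually_lt_const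
      (by simp; linarith)).exists
  obtain ⟨N, hNK, hNε⟩ : ∃ N : ℕ, 2 * K + 1 < N ∧ ((2 * K + 1 : ℕ) : ℝ) / N < ε / 8 :=
    ((eventually_gt_atTop _).and (((tendsto_const_nhds (x := ((2 * K + 1 : ℕ) : ℝ))).div_atTop
      tendsto_natCast_atTop_atTop).eventually_lt_const (by linarith))).exists
  have hN : 0 < N := by omega
  have hN' : (0 : ℝ) < N := Nat.cast_pos.2 hN
  obtain ⟨S, hS, hSd, hSN⟩ := exists_tower h hna hN (show 0 < ε / 8 by linarith)
  have huniq : ∀ (i j : ℕ) z, i < N → j < N → iter T (-(i : ℤ)) z ∈ S →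
      iter T (-(j : ℤ)) z ∈ S → i = j := by
    suffices ∀ (i j : ℕ) z, i < j → j < N → iter T (-(i : ℤ)) z ∈ S →
        iter T (-(j : ℤ)) z ∉ S by
      intro i j z hi hj h1 h2
      rcases lt_trichotomy i j with hl | hl | hl
      exacts [absurd h2 (this i j z hl hj h1), hl, absurd h1 (this j i z hl hi h2)]
    intro i j z hij hj h1 h2
    refine hSd _ h2 (j - i) (by omega) (by omega) ?_
    rwa [← iter_add, show ((j - i : ℕ) : ℤ) + -(j : ℤ) = -(i : ℤ) by omega]
  have hSle : N * μ.real S ≤ 1 := by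
    have hsum := measureReal_biUnion_finset (μ := μ) (s := Finset.range N)
      (f := fun i : ℕ => iter T (-(i : ℤ)) ⁻¹' S) (fun i hi j hj hne =>
        Set.disjoint_left.2 fun z hz hz' =>
          hne (huniq i j z (Finset.mem_range.1 hi) (Finset.mem_range.1 hj) hz hz'))
      fun i _ => measurable_iter T _ hS
    simp only [measureReal_preimage_iter hT _ hS, Finset.sum_const, Finset.card_range,
      nsmul_eq_mul] at hsum
    rw [← hsum]
    exact measureReal_le_one
  -- names and chunks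
  let name : X → Name N ι := fun x i =>
    (decide (iter T i x ∈ B), L.addr (iter T i x),
      fun j => decide ((i : ℤ) + e (iter T i x) = j))
  have hname : ∀ w, MeasurableSet {x | name x = w} := fun w => by
    rw [show {x | name x = w} = ⋂ i : Fin N, iter T ((i : ℕ) : ℤ) ⁻¹'
        ({z | decide (z ∈ B) = (w i).1} ∩ ({z | L.addr z = (w i).2.1} ∩
          ⋂ j : Fin N, {z | decide (((i : ℕ) : ℤ) + e z = j) = (w i).2.2 j})) by
      ext x; simp [name, funext_iff, Prod.ext_iff]]
    refine .iInter fun i => measurable_iter T _ (MeasurableSet.inter ?_ ((L.addr_meas _).inter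
      (.iInter fun j => ?_)))
    · cases (w i).1
      · simp only [decide_eq_false_iff_not]
        exact hB.compl
      · simp only [decide_eq_true_eq]
        exact hB
    · exact L.pw_meas i₀ (Set.to_countable
        {z : ℤ | decide (((i : ℕ) : ℤ) + z = j) = (w i).2.2 j}).measurableSet
  set α : ℝ := μ.real (L.fiber i₀) with hα
  have hα0 : 0 < α := by
    have : Nonempty ι := ⟨i₀⟩
    rw [hα, L.measureReal_fiber hT]
    exact div_pos one_pos (Nat.cast_pos.2 Fintype.card_pos)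
  obtain ⟨d, hd⟩ : ∃ d : ℕ, N * Fintype.card (Name N ι) * (α / 2 ^ (d + 1)) < ε / 8 := by
    have := ((tendsto_const_nhds (x := N * Fintype.card (Name N ι) * α)).div_atTop
      ((tendsto_pow_atTop_atTop_of_one_lt (one_lt_two (α := ℝ))).comp
        (tendsto_add_atTop_nat 1))).eventually_lt_const (show (0 : ℝ) < ε / 8 by linarith)
    obtain ⟨d, hd⟩ := this.exists
    exact ⟨d, by rw [← mul_div_assoc]; exact hd⟩
  set q : ℝ := α / 2 ^ (d + 1)
  have hq : 0 < q := div_pos hα0 (by positivity)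
  let cell : (Name N ι) → Set X := fun w => S ∩ {x | name x = w}
  have hcell : ∀ w, MeasurableSet (cell w) := fun w => hS.inter (hname w)
  let num : (Name N ι) → ℕ := fun w => ⌊μ.real (cell w) / q⌋₊
  choose Ch hCh hChd using fun w => exists_pieces hna hq.le (num w) (hcell w)
    ((le_div_iff₀ hq).1 (Nat.floor_le (div_nonneg measureReal_nonneg hq.le)))
  let J := (p : Σ w, Fin (num w)) × {j : Fin N // (p.1 j).2.1 = i₀}
  let P : ((p : Σ w, Fin (num w)) × {j : Fin N // (p.1 j).2.1 = i₀}) → Set X := fun u =>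
    iter T (-((u.2.1 : ℕ) : ℤ)) ⁻¹' Ch u.1.1 u.1.2
  have hP : ∀ u, MeasurableSet (P u) ∧ P u ⊆ L.fiber i₀ ∧ μ.real (P u) = q := fun u => by
    refine ⟨measurable_iter T _ (hCh _ _).1, fun z hz => ?_, ?_⟩
    · have hw : name (iter T (-((u.2.1 : ℕ) : ℤ)) z) = u.1.1 := ((hCh _ _).2.1 hz).2
      have := congrArg (fun w : (Name N ι) => (w u.2.1).2.1) hw
      simp only [name, iter_iter_neg, u.2.2] at this
      exact this
    · exact (measureReal_preimage_iter hT _ (hCh _ _).1).trans (hCh _ _).2.2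
  have hPd : Pairwise fun u v => Disjoint (P u) (P v) := by
    rintro ⟨⟨w, c⟩, ⟨j, hj⟩⟩ ⟨⟨w', c'⟩, ⟨j', hj'⟩⟩ hne
    refine Set.disjoint_left.2 fun z hz hz' => hne ?_
    obtain rfl : j = j' := Fin.ext (huniq _ _ z j.2 j'.2 ((hCh w c).2.1 hz).1
      ((hCh w' c').2.1 hz').1)
    obtain rfl : w = w' := ((hCh w c).2.1 hz).2.symm.trans ((hCh w' c').2.1 hz').2
    obtain rfl : c = c' := not_not.1 fun hcc => Set.disjoint_left.1 (hChd w hcc) hz hz'
    rfl
  obtain ⟨addr, lab, haddr, hlab, hmeas, hPaddr, hPae⟩ := exists_labels (κ := Fin (d + 1) → Bool)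
    hna (L.addr_meas i₀ : MeasurableSet (L.fiber i₀)) hq (by
      simp only [Fintype.card_fun, Fintype.card_bool, Fintype.card_fin, q]
      push_cast
      field_simp
      exact hα) hP hPd
  -- the array
  let b : Fin (d + 1) → Bool := fun _ => false
  have hbm : MeasurableSet {x | x ∈ L.fiber i₀ ∧ addr x = b} := (L.addr_meas i₀).inter (haddr b)
  have heq : ∀ {A : Set X}, μ.real A = q → μ {x | x ∈ L.fiber i₀ ∧ addr x = b} = μ A :=
    fun hA => (ENNReal.toReal_eq_toReal_iff' (measure_ne_top _ _) (measure_ne_top _ _)).1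
      ((hmeas b).trans hA.symm)
  have hg : ∀ w c, Nonempty (PIso T μ {x | x ∈ L.fiber i₀ ∧ addr x = b} (Ch w c)) :=
    fun w c => exists_piso h hbm (hCh w c).1 (heq (hCh w c).2.2)
  let g := fun w c => (hg w c).some
  have hex : ∀ k, ∃ f : PIso T μ {x | x ∈ L.fiber i₀ ∧ addr x = b}
      {x | x ∈ L.fiber i₀ ∧ addr x = k}, ∀ u, lab u = k →
        f.fwd = ((g u.1.1 u.1.2).shiftBy hT ((u.2.1 : ℕ) : ℤ)).fwd ∧
        f.bwd = ((g u.1.1 u.1.2).shiftBy hT ((u.2.1 : ℕ) : ℤ)).bwd := fun k => by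
    by_cases hk : ∃ u, lab u = k
    · obtain ⟨u, rfl⟩ := hk
      refine ⟨((g u.1.1 u.1.2).shiftBy hT ((u.2.1 : ℕ) : ℤ)).congr hT
        (Eventually.of_forall fun _ => Iff.rfl) (hPae u), fun v hv => ?_⟩
      rw [hlab hv]
      exact ⟨rfl, rfl⟩
    · exact ⟨(exists_piso h hbm ((L.addr_meas i₀).inter (haddr k)) (heq (hmeas k))).some,
        fun u hu => absurd ⟨u, hu⟩ hk⟩
  choose mk hmk' using hex
  have hmk := fun u => hmk' (lab u) u rfl
  let M : Arr T μ (L.fiber i₀) (Fin (d + 1) → Bool) := Arr.ofPieces hT addr haddr b mk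
  -- the visits of a column are linked
  have hlink : ∀ᵐ c₀ ∂μ, ∀ w c, c₀ ∈ Ch w c → ∀ j j' : {j : Fin N // (w j).2.1 = i₀},
      mv T (M.pw (addr (iter T ((j'.1 : ℕ) : ℤ) c₀))) (iter T ((j.1 : ℕ) : ℤ) c₀) =
        iter T ((j'.1 : ℕ) : ℤ) c₀ := by
    filter_upwards [ae_all_iff.2 fun w => ae_all_iff.2 fun c => (g w c).spec]
      with c₀ hc₀ w c hc j j'
    have hz : ∀ j : {j : Fin N // (w j).2.1 = i₀},
        addr (iter T ((j.1 : ℕ) : ℤ) c₀) = lab ⟨⟨w, c⟩, j⟩ := fun j =>
      hPaddr ⟨⟨w, c⟩, j⟩ _ (by simpa [P, iter_neg_iter] using hc)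
    have h2 : iter T ((g w c).fwd (iter T ((g w c).bwd c₀) c₀))
        (iter T ((g w c).bwd c₀) c₀) = c₀ := ((hc₀ w c).2 hc).2
    have hw0 : iter T ((g w c).bwd c₀ + -((j.1 : ℕ) : ℤ)) (iter T ((j.1 : ℕ) : ℤ) c₀) =
        iter T ((g w c).bwd c₀) c₀ := by
      rw [← iter_add, neg_add_cancel_right]
    have hb : ∀ y k, addr y = k → (mk (addr y)).bwd = (mk k).bwd := fun y k h => h ▸ rfl
    simp only [M, Arr.ofPieces, mv, hb _ _ (hz j), hz j', hmk, PIso.shiftBy, iter_neg_iter]
    conv_rhs => rw [← h2]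
    rw [hw0, ← iter_add, ← iter_add, ← iter_add]
    congr 1
    ring
  refine ⟨d, M, ?_⟩
  -- the bad set
  set Good : Set X := (⋃ i ∈ Finset.Ico K (N - K - 1), ⋃ p : Σ w, Fin (num w),
    iter T (-((i : ℕ) : ℤ)) ⁻¹' Ch p.1 p.2) ∩ ({x | (K : ℤ) < |e x|} ∪
      iter T 1 ⁻¹' {x | (K : ℤ) < |e x|})ᶜ with hGood
  have hem : MeasurableSet {x | (K : ℤ) < |e x|} :=
    L.pw_meas i₀ (Set.to_countable {z : ℤ | (K : ℤ) < |z|}).measurableSet
  have hbad : μ.real Goodᶜ < ε := by
    set C : Set X := ⋃ p : Σ w, Fin (num w), Ch p.1 p.2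
    have hCm : MeasurableSet C := .iUnion fun p => (hCh p.1 p.2).1
    have hCd : Pairwise fun p p' : Σ w, Fin (num w) => Disjoint (Ch p.1 p.2) (Ch p'.1 p'.2) := by
      rintro ⟨w, c⟩ ⟨w', c'⟩ hne
      refine Set.disjoint_left.2 fun z hz hz' => hne ?_
      obtain rfl : w = w' := ((hCh w c).2.1 hz).2.symm.trans ((hCh w' c').2.1 hz').2
      obtain rfl : c = c' := not_not.1 fun hcc => Set.disjoint_left.1 (hChd w hcc) hz hz'
      rfl
    have hCval : μ.real C = ∑ w, (num w : ℝ) * q := by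
      have := measureReal_biUnion_finset (μ := μ) (s := (Finset.univ : Finset (Σ w, Fin (num w))))
        (f := fun p => Ch p.1 p.2) (fun p _ p' _ hne => hCd hne) fun p _ => (hCh p.1 p.2).1
      simpa [C, (hCh _ _).2.2, Fintype.card_sigma, Finset.sum_mul] using this
    have hSsum : μ.real S = ∑ w, μ.real (cell w) := by
      have := measureReal_biUnion_finset (μ := μ) (s := (Finset.univ : Finset (Name N ι)))
        (f := cell)
        (fun w _ w' _ hne => Set.disjoint_left.2 fun z hz hz' => hne (hz.2.symm.trans hz'.2))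
        fun w _ => hcell w
      rwa [show (⋃ w ∈ (Finset.univ : Finset (Name N ι)), cell w) = S by ext x; simp [cell]] at this
    have hCS : μ.real S - Fintype.card (Name N ι) * q ≤ μ.real C := by
      rw [hCval, hSsum, ← Finset.card_univ, ← nsmul_eq_mul, ← Finset.sum_const,
        ← Finset.sum_sub_distrib]
      refine Finset.sum_le_sum fun w _ => ?_
      have := (div_lt_iff₀ hq).1 (Nat.lt_floor_add_one (μ.real (cell w) / q))
      simp only [num]
      linarith
    have hCle : μ.real C ≤ μ.real S :=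
      measureReal_mono (iUnion_subset fun p => (hCh p.1 p.2).2.1.trans inter_subset_left)
    have hmid : μ.real (⋃ i ∈ Finset.Ico K (N - K - 1), iter T (-((i : ℕ) : ℤ)) ⁻¹' C) =
        ((N : ℝ) - (2 * K + 1 : ℕ)) * μ.real C := by
      rw [measureReal_biUnion_finset (fun i hi j hj hne => Set.disjoint_left.2 fun z hz hz' => ?_)
        fun i _ => measurable_iter T _ hCm]
      · simp only [measureReal_preimage_iter hT _ hCm, Finset.sum_const, Nat.card_Ico,
          nsmul_eq_mul]
        rw [show N - K - 1 - K = N - (2 * K + 1) by omega, Nat.cast_sub hNK.le]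
      · obtain ⟨p, hp⟩ := mem_iUnion.1 hz
        obtain ⟨p', hp'⟩ := mem_iUnion.1 hz'
        have := Finset.mem_Ico.1 hi
        have := Finset.mem_Ico.1 hj
        exact hne (huniq i j z (by omega) (by omega) ((hCh _ _).2.1 hp).1 ((hCh _ _).2.1 hp').1)
    have hsub : Goodᶜ ⊆ (⋃ i ∈ Finset.Ico K (N - K - 1), iter T (-((i : ℕ) : ℤ)) ⁻¹' C)ᶜ ∪
        ({x | (K : ℤ) < |e x|} ∪ iter T 1 ⁻¹' {x | (K : ℤ) < |e x|}) := by
      simp only [hGood, C, preimage_iUnion, compl_inter, compl_compl]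
      exact Subset.rfl
    refine (measureReal_mono hsub).trans_lt ((measureReal_union_le _ _).trans_lt
      ((add_le_add le_rfl (measureReal_union_le _ _)).trans_lt ?_))
    rw [probReal_compl_eq_one_sub (Finset.measurableSet_biUnion _ fun i _ =>
      measurable_iter T _ hCm), hmid, measureReal_preimage_iter hT _ hem]
    have h1 : ((2 * K + 1 : ℕ) : ℝ) * μ.real C ≤ ε / 8 := by
      refine le_trans ?_ hNε.le
      rw [le_div_iff₀ hN', mul_assoc]
      exact mul_le_of_le_one_right (Nat.cast_nonneg _) (by nlinarith)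
    have h2 : (N : ℝ) * Fintype.card (Name N ι) * q < ε / 8 := hd
    nlinarith
  -- a good point is determined inside its column
  have hbase : ∀ z, ∀ i : ℕ, K ≤ i → i < N - K → ∀ w (c : Fin (num w)),
      iter T (-(i : ℤ)) z ∈ Ch w c → ¬(K : ℤ) < |e z| → L.addr (mv T e z) = i₀ →
      ∃ j : {j : Fin N // (w j).2.1 = i₀},
        mv T e z = iter T ((j.1 : ℕ) : ℤ) (iter T (-(i : ℤ)) z) ∧
        ∀ hi : i < N, (w ⟨i, hi⟩).2.2 j.1 = true := by
    intro z i hiK hiN w c hc hez hfib
    have hle := abs_le.1 (not_lt.1 hez)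
    obtain ⟨j, hj⟩ : ∃ j : ℕ, (j : ℤ) = i + e z := ⟨((i : ℤ) + e z).toNat, by omega⟩
    have hy : mv T e z = iter T (j : ℤ) (iter T (-(i : ℤ)) z) := by
      rw [← iter_add, hj, mv]
      congr 1
      ring
    have hjN : j < N := by omega
    have hw : name (iter T (-(i : ℤ)) z) = w := ((hCh w c).2.1 hc).2
    refine ⟨⟨⟨j, hjN⟩, ?_⟩, hy, fun hi => ?_⟩
    · rw [← hw]
      show L.addr _ = i₀
      rw [← hy, hfib]
    · rw [← congrFun hw ⟨i, hi⟩]
      simp [name, iter_iter_neg, hj]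
  set L' := L.refine hT i₀ M with hL'
  have hL'addr : ∀ z, L'.addr z = (L.addr z, addr (mv T e z)) := fun z => rfl
  set E : Set (ι × (Fin (d + 1) → Bool)) := {p | ∃ u : (p : Σ w, Fin (num w)) ×
      {j : Fin N // (p.1 j).2.1 = i₀}, lab u = p.2 ∧
    ∃ i : Fin N, (u.1.1 i).1 = true ∧ (u.1.1 i).2.1 = p.1 ∧ (u.1.1 i).2.2 u.2.1 = true} with hE
  have hgood : ∀ᵐ z ∂μ, z ∈ Good →
      (z ∈ B ↔ L'.addr z ∈ E) ∧ ∃ p, mv T (L'.pw p) z = T z := by
    filter_upwards [ae_all_iter hT L.spec, ae_all_iter hT hlink] with z hL hlk ⟨hzC, hze⟩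
    obtain ⟨i, hi, hzC⟩ := mem_iUnion₂.1 hzC
    obtain ⟨⟨w, c⟩, hc⟩ := mem_iUnion.1 hzC
    simp only [Finset.mem_Ico] at hi
    simp only [mem_compl_iff, mem_union, mem_preimage, not_or] at hze
    have hc' : iter T (-((i + 1 : ℕ) : ℤ)) (iter T 1 z) ∈ Ch w c := by
      rw [← iter_add, show -((i + 1 : ℕ) : ℤ) + 1 = -(i : ℤ) by omega]
      exact hc
    have hL0 := hL 0 (mem_univ _)
    rw [iter_zero] at hL0
    have hL1 := hL 1 (mem_univ _)
    obtain ⟨j, hj, hjt⟩ := hbase z i hi.1 (by omega) w c hc hze.1 (hL0.2 i₀).2.1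
    obtain ⟨j', hj', -⟩ := hbase (iter T 1 z) (i + 1) (by omega) (by omega) w c hc' hze.2
      (hL1.2 i₀).2.1
    have hiN : i < N := by omega
    have hw : name (iter T (-(i : ℤ)) z) = w := ((hCh w c).2.1 hc).2
    have hlab' : addr (mv T e z) = lab ⟨⟨w, c⟩, j⟩ :=
      hPaddr ⟨⟨w, c⟩, j⟩ _ (by rw [hj]; simpa [P, iter_neg_iter] using hc)
    refine ⟨⟨fun hzB => ?_, ?_⟩, ?_⟩
    · refine ⟨⟨⟨w, c⟩, j⟩, hlab'.symm, ⟨i, hiN⟩, ?_, ?_, hjt hiN⟩
      · show (w ⟨i, hiN⟩).1 = true
        rw [← congrFun hw ⟨i, hiN⟩]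
        simpa [name, iter_iter_neg] using hzB
      · show (w ⟨i, hiN⟩).2.1 = _
        rw [← congrFun hw ⟨i, hiN⟩]
        simp [name, iter_iter_neg, hL'addr]
    · rintro ⟨u, hu, i', hib, hia, hie⟩
      obtain rfl := hlab (hu.trans hlab')
      set c₀ := iter T (-(i : ℤ)) z with hc₀
      change (w i').1 = true at hib
      change (w i').2.1 = _ at hia
      change (w i').2.2 j.1 = true at hie
      rw [← congrFun hw i'] at hib hia hie
      simp only [name, decide_eq_true_eq, hL'addr] at hib hia hie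
      have hz' := hL ((i' : ℕ) + -(i : ℤ)) (mem_univ _)
      rw [iter_add, ← hc₀] at hz'
      have hyy : mv T e (iter T ((i' : ℕ) : ℤ) c₀) = mv T e z := by
        rw [hj, mv, ← iter_add]
        congr 1
        omega
      have hzz : iter T ((i' : ℕ) : ℤ) c₀ = z := by
        have h1 := (hz'.2 i₀).2.2 (L.addr (iter T ((i' : ℕ) : ℤ) c₀))
        rw [hz'.1] at h1
        rw [← h1]
        show mv T (L.pw _) (mv T e (iter T ((i' : ℕ) : ℤ) c₀)) = z
        rw [hyy, hia]
        exact ((hL0.2 i₀).2.2 _).trans hL0.1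
      rwa [hzz] at hib
    · refine ⟨(L.addr (iter T 1 z), addr (mv T e (iter T 1 z))), ?_⟩
      have hlk' := hlk (-(i : ℤ)) w c hc j j'
      rw [show iter T (-((i + 1 : ℕ) : ℤ)) (iter T 1 z) = iter T (-(i : ℤ)) z by
        rw [← iter_add]; congr 1; omega] at hj'
      rw [← hj, ← hj'] at hlk'
      calc mv T (L'.pw (L.addr (iter T 1 z), addr (mv T e (iter T 1 z)))) z
          = mv T (L.pw (L.addr (iter T 1 z)))
              (mv T (M.pw (addr (mv T e (iter T 1 z)))) (mv T e z)) := by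
            simp only [hL', Arr.refine, mv, ← iter_add, he]
            congr 1
            ring
        _ = T z := by rw [hlk', (hL1.2 i₀).2.2, hL1.1, iter_one]
  have hnull : ∀ {R : Set X}, (∀ᵐ z ∂μ, z ∈ Good → z ∉ R) → μ.real R < ε := fun {R} hR =>
    lt_of_le_of_lt (ENNReal.toReal_mono (measure_ne_top _ _)
      (measure_mono_ae (hR.mono fun z hz hzR hG => hz hG hzR))) hbad
  refine ⟨⟨E, hnull (hgood.mono fun z hz hG hzR => hzR (hz hG).1)⟩,
    hnull (hgood.mono fun z hz hG hzR => ?_)⟩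
  obtain ⟨p, hp⟩ := (hz hG).2
  exact hzR p hp

end FA.Dye

end
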